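import Fermat.Agent.CFT.Local.Provide
import Fermat.Agent.CFT.Coh.ResCores

/-!
# CFT program, bridge Local → Global: the local class module of a group action

Let `D` be a finite group acting faithfully, by `ℚ_q`-algebra automorphisms, on a finite
extension `E` of `ℚ_q` (in the application: a decomposition group acting on a local component of
a semilocal algebra).  Then `E` is Galois over the fixed field `E^D` with group `D`, and the local
class field theory of `Local/Provide.lean` gives the class-module axioms for the `D`-module `Eˣ`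
at every subgroup, in `groupCohomology` form:

`exists_class` : there is `σ ∈ H²(D, Eˣ)` such that for every subgroup `H ≤ D`
* `H¹(H, Eˣ) = 0`,
* `|H²(H, Eˣ)| = |H|`,
* `H²(H, Eˣ)` is generated by the restriction of `σ`.

The `D`-module structure on `Eˣ` is any `MulDistribMulAction D Eˣ` compatible with the action on
`E` (so that the statement applies verbatim to `Global.localCompRep`).
-/

set_option autoImplicit false
set_option linter.style.haveILetI false

namespace Fermat.Agent.CFT.Bridge.ActClass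

open CategoryTheory groupCohomology Fermat.Agent.CFT Fermat.Agent.CFT.Local

/-! ## The fixed field as a local field -/

section Fix

variable (q : ℕ) [Fact q.Prime] (D E : Type) [Group D] [Field E] [Algebra ℚ_[q] E]
  [MulSemiringAction D E]

/-- The fixed field of `D`, as an abstract field. -/
abbrev Fix : Type := ↥(FixedPoints.subfield D E)

variable (hlin : ∀ (d : D) (c : ℚ_[q]), d • algebraMap ℚ_[q] E c = algebraMap ℚ_[q] E c)

/-- The `ℚ_q`-algebra structure of the fixed field of a group acting `ℚ_q`-linearly. -/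
@[reducible] noncomputable def fixAlgebra : Algebra ℚ_[q] (Fix D E) :=
  RingHom.toAlgebra ((algebraMap ℚ_[q] E).codRestrict (FixedPoints.subfield D E)
    (fun c d => hlin d c))

theorem fixTower :
    letI := fixAlgebra q D E hlin
    IsScalarTower ℚ_[q] (Fix D E) E :=
  letI := fixAlgebra q D E hlin
  IsScalarTower.of_algebraMap_eq (fun _ => rfl)

end Fix

/-! ## From cocycle form to cohomology form -/

section Core

variable {H : Type} [Group H] [Finite H] {X : Type} [AddCommGroup X]

/-- The class-module axioms in cocycle form give the cohomological form: `H¹ = 0`, `H²` is cyclic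
of order `|H|`, generated by the class of the given cocycle. -/
theorem coh_of_cocycle (ρ : Representation ℤ H X) (s : H × H → X)
    (hs : s ∈ cocycles₂ (Rep.of ρ))
    (h1 : ∀ c : cocycles₁ (Rep.of ρ), ⇑c ∈ coboundaries₁ (Rep.of ρ))
    (gen : ∀ τ : cocycles₂ (Rep.of ρ), ∃ (k : ℤ) (b : H → X),
      ⇑τ = k • s + (d₁₂ (Rep.of ρ)).hom b)
    (ord : ∀ k : ℤ, (∃ b : H → X, k • s = (d₁₂ (Rep.of ρ)).hom b) → (Nat.card H : ℤ) ∣ k) :
    Limits.IsZero (groupCohomology (Rep.of ρ) 1) ∧
      Nat.card (groupCohomology (Rep.of ρ) 2) = Nat.card H ∧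
      ∀ y : groupCohomology (Rep.of ρ) 2, ∃ k : ℤ, y = k • (H2π (Rep.of ρ)).hom ⟨s, hs⟩ := by
  set R : Rep.{0} ℤ H := Rep.of ρ with hR
  set t : cocycles₂ R := ⟨s, hs⟩ with ht
  -- generation
  have hgen' : ∀ y : groupCohomology R 2, ∃ k : ℤ, y = k • (H2π R).hom t := by
    intro y
    induction y using H2_induction_on with
    | h τ =>
    obtain ⟨k, b, hb⟩ := gen τ
    refine ⟨k, ?_⟩
    rw [← map_zsmul, H2π_eq_iff]
    refine ⟨b, ?_⟩
    show (d₁₂ R).hom b = ⇑τ - k • s
    rw [hb]
    abel
  -- order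
  have hord' : ∀ k : ℤ, k • (H2π R).hom t = 0 → (Nat.card H : ℤ) ∣ k := by
    intro k hk
    rw [← map_zsmul, H2π_eq_zero_iff] at hk
    obtain ⟨b, hb⟩ := hk
    exact ord k ⟨b, hb.symm⟩
  refine ⟨?_, ?_, hgen'⟩
  · -- Hilbert 90
    haveI : Subsingleton (groupCohomology R 1) := by
      have key : ∀ z : groupCohomology R 1, z = 0 := by
        intro z
        induction z using H1_induction_on with
        | h c =>
        rw [H1π_eq_zero_iff]
        exact h1 c
      exact ⟨fun x y => by rw [key x, key y]⟩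
    exact ModuleCat.isZero_of_subsingleton _
  · -- the order of `H²`
    have hkill : Nat.card H • (H2π R).hom t = 0 :=
      Coh.ResCores.card_nsmul_groupCohomology_eq_zero R 1 _
    have hadd : addOrderOf ((H2π R).hom t) = Nat.card H := by
      apply Nat.dvd_antisymm (addOrderOf_dvd_of_nsmul_eq_zero hkill)
      have h0 : ((addOrderOf ((H2π R).hom t) : ℕ) : ℤ) • (H2π R).hom t = 0 := by
        rw [natCast_zsmul]
        exact addOrderOf_nsmul_eq_zero _
      exact_mod_cast hord' _ h0
    have htop : AddSubgroup.zmultiples ((H2π R).hom t) = ⊤ := by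
      rw [eq_top_iff]
      intro y _
      obtain ⟨k, rfl⟩ := hgen' y
      exact AddSubgroup.zsmul_mem _ (AddSubgroup.mem_zmultiples _) k
    rw [← hadd, ← Nat.card_zmultiples, htop]
    exact (Nat.card_congr (Equiv.Set.univ _)).symm

end Core

/-! ## The class module -/

section Main

variable (q : ℕ) [Fact q.Prime] (D E : Type) [Group D] [Finite D] [Field E]
  [Algebra ℚ_[q] E] [FiniteDimensional ℚ_[q] E] [MulSemiringAction D E] [FaithfulSMul D E]
  [MulDistribMulAction D Eˣ]

/-- **The local class module of a faithful action on a finite extension of `ℚ_q`.** -/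
theorem exists_class
    (hact : ∀ (d : D) (u : Eˣ), ((d • u : Eˣ) : E) = d • (u : E))
    (hlin : ∀ (d : D) (c : ℚ_[q]), d • algebraMap ℚ_[q] E c = algebraMap ℚ_[q] E c) :
    ∃ σ : groupCohomology (Rep.ofMulDistribMulAction D Eˣ) 2, ∀ H : Subgroup D,
      Limits.IsZero (groupCohomology (Rep.res H.subtype (Rep.ofMulDistribMulAction D Eˣ)) 1) ∧
      Nat.card (groupCohomology (Rep.res H.subtype (Rep.ofMulDistribMulAction D Eˣ)) 2) =
        Nat.card H ∧
      ∀ y : groupCohomology (Rep.res H.subtype (Rep.ofMulDistribMulAction D Eˣ)) 2,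
        ∃ k : ℤ, y = k • (Coh.rest (Rep.ofMulDistribMulAction D Eˣ) H 2).hom σ := by
  classical
  letI : Algebra ℚ_[q] (Fix D E) := fixAlgebra q D E hlin
  haveI : IsScalarTower ℚ_[q] (Fix D E) E := fixTower q D E hlin
  haveI : FiniteDimensional ℚ_[q] (Fix D E) := FiniteDimensional.left ℚ_[q] (Fix D E) E
  set A : Rep.{0} ℤ D := Rep.ofMulDistribMulAction D Eˣ with hA
  let B : Rep.{0} ℤ (E ≃ₐ[Fix D E] E) := unitsRep (Fix D E) E
  let e : D ≃* (E ≃ₐ[Fix D E] E) := FixedPoints.toAlgAutMulEquiv D E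
  have he : ∀ (d : D) (x : E), e d x = d • x := fun d x => rfl
  have hρ : ∀ (d : D) (x : Additive Eˣ), A.ρ d x = B.ρ (e d) x := by
    intro d x
    apply Additive.toMul.injective
    apply Units.ext
    show ((d • Additive.toMul x : Eˣ) : E) = e d (Additive.toMul x : Eˣ)
    rw [hact, he]
  obtain ⟨-, -, -, -, -, ⟨u, hu⟩, -⟩ := Provide.invBasic q (Fix D E) E
  induction u using H2_induction_on with
  | h σ₀ =>
  have hcl : ∀ (H : Type) [Group H] (f : H →* (E ≃ₐ[Fix D E] E)), Function.Injective f →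
      Triv.IsClassAt B σ₀ f := fun H _ f hf =>
    ClassAt.isClassAt Provide.invBasic Provide.invRes q (Fix D E) E σ₀ hu H f hf
  -- the fundamental cocycle on `D`
  have hρA : (A.ρ : Representation ℤ D (Additive Eˣ)) = (Rep.res e.toMonoidHom B).ρ := by
    ext d x
    exact congrArg Additive.toMul (hρ d x)
  have hs' : (fun p : D × D => (σ₀ (e p.1, e p.2) : Additive Eˣ)) ∈
      cocycles₂ (Rep.of ((Rep.res e.toMonoidHom B).ρ : Representation ℤ D (Additive Eˣ))) :=
    (mapCocycles₂ e.toMonoidHom (𝟙 (Rep.res e.toMonoidHom B)) σ₀).2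
  have hs : (fun p : D × D => (σ₀ (e p.1, e p.2) : Additive Eˣ)) ∈ cocycles₂ A := by
    rw [← hρA] at hs'
    exact hs'
  refine ⟨(H2π A).hom ⟨_, hs⟩, fun H => ?_⟩
  let f : H →* (E ≃ₐ[Fix D E] E) := e.toMonoidHom.comp H.subtype
  have hf : Function.Injective f := e.injective.comp Subtype.val_injective
  obtain ⟨h1, hgen, hord⟩ := hcl H f hf
  have hρR : ((Rep.res H.subtype A).ρ : Representation ℤ H (Additive Eˣ)) = (Rep.res f B).ρ := by
    ext h x
    exact congrArg Additive.toMul (hρ (h : D) x)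
  have ht' : (fun p : H × H => (σ₀ (f p.1, f p.2) : Additive Eˣ)) ∈
      cocycles₂ (Rep.of ((Rep.res f B).ρ : Representation ℤ H (Additive Eˣ))) :=
    (mapCocycles₂ f (𝟙 (Rep.res f B)) σ₀).2
  have ht : (fun p : H × H => (σ₀ (f p.1, f p.2) : Additive Eˣ)) ∈
      cocycles₂ (Rep.res H.subtype A) := by
    rw [← hρR] at ht'
    exact ht'
  have key : ∀ ρ' : Representation ℤ H (Additive Eˣ), ρ' = (Rep.res f B).ρ →
      ∀ hs₁ : (fun p : H × H => (σ₀ (f p.1, f p.2) : Additive Eˣ)) ∈ cocycles₂ (Rep.of ρ'),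
      Limits.IsZero (groupCohomology (Rep.of ρ') 1) ∧
        Nat.card (groupCohomology (Rep.of ρ') 2) = Nat.card H ∧
        ∀ y : groupCohomology (Rep.of ρ') 2, ∃ k : ℤ, y = k • (H2π (Rep.of ρ')).hom ⟨_, hs₁⟩ := by
    intro ρ' hρ' hs₁
    subst hρ'
    exact coh_of_cocycle _ _ hs₁ h1 hgen hord
  obtain ⟨k1, k2, k3⟩ := key _ hρR ht
  refine ⟨k1, k2, fun y => ?_⟩
  obtain ⟨k, hk⟩ := k3 y
  refine ⟨k, ?_⟩
  have hrest : (Coh.rest A H 2).hom ((H2π A).hom ⟨_, hs⟩) =
      (H2π (Rep.res H.subtype A)).hom ⟨_, ht⟩ := by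
    show (groupCohomology.map H.subtype (𝟙 (Rep.res H.subtype A)) 2).hom
      ((H2π A).hom ⟨_, hs⟩) = _
    rw [H2π_comp_map_apply]
    rfl
  rw [hrest]
  exact hk

end Main

end Fermat.Agent.CFT.Bridge.ActClass
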