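import Mathlib
import Fermat.Agent.CFT.Local.Defs
import Fermat.Agent.CFT.Local.OrdCore
import Fermat.Agent.CFT.Glob.UnramReduced

/-!
# The valuation dictionary between a local component of `K ⊗ ℚ_q` and a prime of `𝓞 K`

`K` is a number field, `E` a finite extension of `ℚ_[q]` (abstract, as in `Local/Defs`) and
`ι : K →+* E` a ring homomorphism whose image generates `E` over `ℚ_[q]` (for instance `E` is a
quotient field of `K ⊗[ℚ] ℚ_[q]`).

* `center` : the prime `{x ∈ 𝓞 K | ι x ∈ maxIdeal q E}` of `𝓞 K`, `place` the corresponding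
  height-one prime;
* `dense` : the image of `K` is dense in `E` for the spectral norm;
* `valuation_eq` : the `place`-adic valuation of `x ∈ Kˣ` is `exp (- ordZ q E (ι x))`.
-/

set_option autoImplicit false

namespace Fermat.Agent.CFT.Bridge.CompDict

open Fermat.Agent.CFT.Local NumberField

variable (q : ℕ) [Fact q.Prime] (K : Type) [Field K]
  (E : Type) [Field E] [Algebra ℚ_[q] E] [FiniteDimensional ℚ_[q] E] (ι : K →+* E)

/-! ### The centre -/

omit [FiniteDimensional ℚ_[q] E] in
/-- Algebraic integers of `K` map to integers of `E`. -/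
theorem map_mem_integers (a : 𝓞 K) : ι (a : K) ∈ integers q E := by
  let _ := intAlgebra q E
  have h : IsIntegral ℤ (a : K) := RingOfIntegers.isIntegral_coe a
  have h2 : IsIntegral ℤ (ι (a : K)) := h.map ι.toIntAlgHom
  have h3 : IsIntegral ℤ_[q] (ι (a : K)) := h2.tower_top
  exact h3

omit [FiniteDimensional ℚ_[q] E] in
theorem map_natCast_eq (n : ℕ) : ι (n : K) = algebraMap ℚ_[q] E (n : ℚ_[q]) := by
  rw [map_natCast, map_natCast]

omit [FiniteDimensional ℚ_[q] E] in
theorem map_ratCast_eq (r : ℚ) : ι (r : K) = algebraMap ℚ_[q] E (r : ℚ_[q]) := by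
  rw [map_ratCast, map_ratCast]

theorem spectralNorm_algebraMap_mul (c : ℚ_[q]) (y : E) :
    spectralNorm ℚ_[q] E (algebraMap ℚ_[q] E c * y) = ‖c‖ * spectralNorm ℚ_[q] E y := by
  rw [OrdCore.spectralNorm_mul_eq, spectralNorm_extends]

theorem spectralNorm_sub_le_max (x y : E) :
    spectralNorm ℚ_[q] E (x - y) ≤ max (spectralNorm ℚ_[q] E x) (spectralNorm ℚ_[q] E y) := by
  have h := OrdCore.spectralNorm_add_le_max q E x (-y)
  rwa [← sub_eq_add_neg, spectralNorm_neg (Algebra.IsAlgebraic.isAlgebraic y)] at h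

/-- The centre on `𝓞 K` of the local component `E`: the elements mapping into the maximal
ideal. -/
def center : Ideal (𝓞 K) where
  carrier := {a | ι (a : K) ∈ maxIdeal q E}
  add_mem' := by
    intro a b ha hb
    have := OrdCore.add_mem_maxIdeal q E ha hb
    simpa using this
  zero_mem' := by
    show ι ((0 : 𝓞 K) : K) ∈ maxIdeal q E
    rw [OrdCore.mem_maxIdeal_iff_spectralNorm]
    simp [spectralNorm_zero]
  smul_mem' := by
    intro c a ha
    have := OrdCore.mul_mem_maxIdeal q E (map_mem_integers q K E ι c) ha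
    simpa using this

variable {q K E ι} in
theorem mem_center {a : 𝓞 K} : a ∈ center q K E ι ↔ ι (a : K) ∈ maxIdeal q E := Iff.rfl

variable {q K E ι} in
theorem mem_center_iff_spectralNorm {a : 𝓞 K} :
    a ∈ center q K E ι ↔ spectralNorm ℚ_[q] E (ι (a : K)) < 1 := by
  rw [mem_center, OrdCore.mem_maxIdeal_iff_spectralNorm]

theorem center_isPrime : (center q K E ι).IsPrime := by
  constructor
  · rw [Ideal.ne_top_iff_one, mem_center_iff_spectralNorm]
    have h1 : ι ((1 : 𝓞 K) : K) = 1 := by simp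
    rw [h1, spectralNorm_one (K := ℚ_[q]) (L := E)]
    exact lt_irrefl 1
  · intro a b hab
    rw [mem_center_iff_spectralNorm] at hab
    rw [mem_center_iff_spectralNorm, mem_center_iff_spectralNorm]
    by_contra hcon
    rw [not_or, not_lt, not_lt] at hcon
    have h1 : spectralNorm ℚ_[q] E (ι ((a * b : 𝓞 K) : K)) =
        spectralNorm ℚ_[q] E (ι (a : K)) * spectralNorm ℚ_[q] E (ι (b : K)) := by
      rw [← OrdCore.spectralNorm_mul_eq, ← map_mul]
      simp
    rw [h1] at hab
    have := one_le_mul_of_one_le_of_one_le hcon.1 hcon.2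
    linarith

/-- The prime `q` lies in the centre. -/
theorem natCast_mem_center : ((q : ℕ) : 𝓞 K) ∈ center q K E ι := by
  rw [mem_center_iff_spectralNorm]
  have h : ι (((q : ℕ) : 𝓞 K) : K) = algebraMap ℚ_[q] E (q : ℚ_[q]) := by
    rw [← map_natCast_eq q K E ι q]
    simp
  rw [h, spectralNorm_extends]
  exact Padic.norm_p_lt_one

theorem center_ne_bot [CharZero K] : center q K E ι ≠ ⊥ := by
  intro h
  have h1 := natCast_mem_center q K E ι
  rw [h, Ideal.mem_bot] at h1
  have h2 : ((q : ℕ) : 𝓞 K) ≠ 0 := by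
    exact_mod_cast (Fact.out : q.Prime).ne_zero
  exact h2 h1

variable [NumberField K]

/-- The height-one prime of `𝓞 K` below the local component `E`. -/
def place : IsDedekindDomain.HeightOneSpectrum (𝓞 K) where
  asIdeal := center q K E ι
  isPrime := center_isPrime q K E ι
  ne_bot := center_ne_bot q K E ι

theorem place_asIdeal : (place q K E ι).asIdeal = center q K E ι := rfl

/-! ### Density -/

section Dense

variable (hgen : Algebra.adjoin ℚ_[q] (Set.range ι) = ⊤)

omit [NumberField K] in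
include hgen in
/-- The image of `K` is dense in the local component `E`. -/
theorem dense (y : E) {ε : ℝ} (hε : 0 < ε) :
    ∃ x : K, spectralNorm ℚ_[q] E (y - ι x) < ε := by
  have hy : y ∈ Submodule.span ℚ_[q] ((Submonoid.closure (Set.range ι) : Submonoid E) : Set E) := by
    have h1 := Algebra.adjoin_eq_span ℚ_[q] (Set.range ι)
    rw [← h1, hgen, Algebra.top_toSubmodule]
    exact Submodule.mem_top
  have hcl : (Submonoid.closure (Set.range ι) : Submonoid E) = MonoidHom.mrange (ι : K →* E) := by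
    have h2 : Set.range ι = ((MonoidHom.mrange (ι : K →* E) : Submonoid E) : Set E) := by
      ext z
      simp
    rw [h2]
    exact Submonoid.closure_eq _
  rw [hcl] at hy
  revert ε
  induction hy using Submodule.span_induction with
  | mem y hy =>
    intro ε hε
    obtain ⟨x, rfl⟩ := hy
    refine ⟨x, ?_⟩
    simpa [spectralNorm_zero] using hε
  | zero =>
    intro ε hε
    refine ⟨0, ?_⟩
    simpa [spectralNorm_zero] using hε
  | add y₁ y₂ _ _ h₁ h₂ =>
    intro ε hε
    obtain ⟨x₁, hx₁⟩ := h₁ hε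
    obtain ⟨x₂, hx₂⟩ := h₂ hε
    refine ⟨x₁ + x₂, ?_⟩
    have : y₁ + y₂ - ι (x₁ + x₂) = (y₁ - ι x₁) + (y₂ - ι x₂) := by rw [map_add]; ring
    rw [this]
    exact lt_of_le_of_lt (OrdCore.spectralNorm_add_le_max q E _ _) (max_lt hx₁ hx₂)
  | smul c y _ h =>
    intro ε hε
    have hc : 0 < ‖c‖ + 1 := by positivity
    obtain ⟨x, hx⟩ := h (div_pos hε hc)
    have hs : 0 < spectralNorm ℚ_[q] E (ι x) + 1 := by
      have := spectralNorm_nonneg (K := ℚ_[q]) (ι x)
      linarith
    obtain ⟨r, hr⟩ := Padic.rat_dense q c (div_pos hε hs)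
    refine ⟨(r : K) * x, ?_⟩
    have h1 : c • y - ι ((r : K) * x) =
        algebraMap ℚ_[q] E c * (y - ι x) + algebraMap ℚ_[q] E (c - (r : ℚ_[q])) * ι x := by
      rw [map_mul, map_ratCast_eq q K E ι r, Algebra.smul_def, map_sub]
      ring
    rw [h1]
    refine lt_of_le_of_lt (OrdCore.spectralNorm_add_le_max q E _ _) (max_lt ?_ ?_)
    · rw [spectralNorm_algebraMap_mul]
      calc ‖c‖ * spectralNorm ℚ_[q] E (y - ι x)
          ≤ ‖c‖ * (ε / (‖c‖ + 1)) := mul_le_mul_of_nonneg_left hx.le (norm_nonneg c)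
        _ = ε * (‖c‖ / (‖c‖ + 1)) := by ring
        _ < ε * 1 := by
          apply mul_lt_mul_of_pos_left _ hε
          rw [div_lt_one hc]
          linarith
        _ = ε := mul_one ε
    · rw [spectralNorm_algebraMap_mul]
      have h0 := spectralNorm_nonneg (K := ℚ_[q]) (ι x)
      calc ‖c - (r : ℚ_[q])‖ * spectralNorm ℚ_[q] E (ι x)
          ≤ (ε / (spectralNorm ℚ_[q] E (ι x) + 1)) * spectralNorm ℚ_[q] E (ι x) :=
            mul_le_mul_of_nonneg_right hr.le h0
        _ = ε * (spectralNorm ℚ_[q] E (ι x) / (spectralNorm ℚ_[q] E (ι x) + 1)) := by ring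
        _ < ε * 1 := by
          apply mul_lt_mul_of_pos_left _ hε
          rw [div_lt_one hs]
          linarith
        _ = ε := mul_one ε

end Dense

/-! ### The valuation -/

section Valuation

open IsDedekindDomain WithZero

omit [NumberField K] in
/-- Elements with the same spectral norm have the same valuation. -/
theorem ordZ_eq_of_spectralNorm_eq {x y : Eˣ}
    (h : spectralNorm ℚ_[q] E (x : E) = spectralNorm ℚ_[q] E (y : E)) :
    ordZ q E x = ordZ q E y := by
  rcases lt_trichotomy (ordZ q E x) (ordZ q E y) with h1 | h1 | h1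
  · exact absurd h.symm (ne_of_lt (OrdCore.spectralNorm_lt_of_ordZ_lt q E h1))
  · exact h1
  · exact absurd h (ne_of_lt (OrdCore.spectralNorm_lt_of_ordZ_lt q E h1))

/-- Elements of `K` which are integral at `place` map to integers of `E`. -/
theorem map_mem_integers_of_valuation_le_one (x : K)
    (hx : (place q K E ι).valuation K x ≤ 1) : ι x ∈ integers q E := by
  obtain ⟨n, d, hnd⟩ := (place q K E ι).exists_primeCompl_mul_eq_of_integer x hx
  have hd : (d : 𝓞 K) ∉ center q K E ι := d.2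
  rw [mem_center_iff_spectralNorm, not_lt] at hd
  have hn := map_mem_integers q K E ι n
  rw [OrdCore.mem_integers_iff_spectralNorm] at hn ⊢
  have h1 : ι x * ι ((d : 𝓞 K) : K) = ι (n : K) := by
    rw [← map_mul]
    exact congrArg ι hnd
  have h2 := OrdCore.spectralNorm_mul_eq q E (ι x) (ι ((d : 𝓞 K) : K))
  rw [h1] at h2
  have h0 : 0 ≤ spectralNorm ℚ_[q] E (ι x) := spectralNorm_nonneg _
  calc spectralNorm ℚ_[q] E (ι x)
      = spectralNorm ℚ_[q] E (ι x) * 1 := (mul_one _).symm
    _ ≤ spectralNorm ℚ_[q] E (ι x) * spectralNorm ℚ_[q] E (ι ((d : 𝓞 K) : K)) :=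
        mul_le_mul_of_nonneg_left hd h0
    _ = spectralNorm ℚ_[q] E (ι (n : K)) := h2.symm
    _ ≤ 1 := hn

/-- The unit of `E` attached to a unit of `K`. -/
noncomputable abbrev unitsMap : Kˣ →* Eˣ := Units.map (ι : K →* E)

omit [FiniteDimensional ℚ_[q] E] [NumberField K] in
theorem coe_unitsMap (x : Kˣ) : ((unitsMap K E ι x : Eˣ) : E) = ι (x : K) := rfl

/-- Elements of `K` which are units at `place` map to units of `E`. -/
theorem ordZ_eq_zero_of_valuation_eq_one (x : Kˣ)
    (hx : (place q K E ι).valuation K (x : K) = 1) : ordZ q E (unitsMap K E ι x) = 0 := by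
  rw [← OrdCore.mem_unitGroup_iff_ordZ]
  refine ⟨?_, ?_⟩
  · exact map_mem_integers_of_valuation_le_one q K E ι _ hx.le
  · have h1 : (place q K E ι).valuation K ((x⁻¹ : Kˣ) : K) ≤ 1 := by
      rw [Units.val_inv_eq_inv_val, map_inv₀, hx, inv_one]
    have := map_mem_integers_of_valuation_le_one q K E ι _ h1
    rw [← map_inv]
    exact this

/-- The valuation of `E` restricted to `K` is a multiple of the `place`-adic valuation. -/
theorem exists_ordZ_eq_mul :
    ∃ c : ℤ, 0 < c ∧ ∀ x : Kˣ, ordZ q E (unitsMap K E ι x) =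
      c * (-(log ((place q K E ι).valuation K (x : K)))) := by
  obtain ⟨π, hπ⟩ := (place q K E ι).valuation_exists_uniformizer' K
  have hπ' : (place q K E ι).valuation K (algebraMap (𝓞 K) K π) = exp (-1 : ℤ) := hπ
  have hπ0 : algebraMap (𝓞 K) K π ≠ 0 := by
    intro h
    rw [h, map_zero] at hπ'
    exact absurd hπ'.symm (by simp)
  let πu : Kˣ := Units.mk0 _ hπ0
  have hπu : (place q K E ι).valuation K (πu : K) = exp (-1 : ℤ) := hπ
  refine ⟨ordZ q E (unitsMap K E ι πu), ?_, ?_⟩
  · rw [← OrdCore.mem_maxIdeal_iff_ordZ]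
    have h1 : π ∈ (place q K E ι).asIdeal := by
      rw [← HeightOneSpectrum.valuation_lt_one_iff_mem (K := K)]
      rw [hπ]
      exact exp_lt_exp.mpr (by norm_num) |>.trans_eq exp_zero
    exact h1
  · intro x
    have hx0 : (place q K E ι).valuation K (x : K) ≠ 0 :=
      (Valuation.ne_zero_iff _).mpr x.ne_zero
    set n : ℤ := -(log ((place q K E ι).valuation K (x : K))) with hn
    have hxn : (place q K E ι).valuation K (x : K) = exp (-n) := by
      rw [hn, neg_neg, exp_log hx0]
    have h1 : (place q K E ι).valuation K ((x * πu ^ (-n) : Kˣ) : K) = 1 := by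
      rw [Units.val_mul, Units.val_zpow_eq_zpow_val, map_mul, map_zpow₀, hxn, hπu, ← exp_zsmul,
        ← exp_add]
      simp
    have h2 := ordZ_eq_zero_of_valuation_eq_one q K E ι _ h1
    rw [map_mul, map_zpow, OrdCore.ordZ_mul, OrdCore.ordZ_zpow] at h2
    linarith

variable (hgen : Algebra.adjoin ℚ_[q] (Set.range ι) = ⊤)

omit [NumberField K] in
include hgen in
/-- Every value of the valuation of `E` is attained on `K`. -/
theorem exists_ordZ_unitsMap_eq (y : Eˣ) : ∃ x : Kˣ, ordZ q E (unitsMap K E ι x) = ordZ q E y := by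
  have hy := OrdCore.spectralNorm_pos_of_ne_zero q E y.ne_zero
  obtain ⟨x, hx⟩ := dense q K E ι hgen (y : E) hy
  have h1 : spectralNorm ℚ_[q] E (ι x) = spectralNorm ℚ_[q] E (y : E) := by
    apply le_antisymm
    · have h := spectralNorm_sub_le_max q E (y : E) ((y : E) - ι x)
      rw [sub_sub_cancel] at h
      exact h.trans (max_le le_rfl hx.le)
    · have h := OrdCore.spectralNorm_add_le_max q E ((y : E) - ι x) (ι x)
      rw [sub_add_cancel] at h
      rcases le_max_iff.mp h with h | h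
      · exact absurd h (not_le.mpr hx)
      · exact h
  have hx0 : x ≠ 0 := by
    intro h
    rw [h, map_zero, spectralNorm_zero] at h1
    exact absurd h1 (ne_of_lt hy)
  refine ⟨Units.mk0 x hx0, ?_⟩
  exact ordZ_eq_of_spectralNorm_eq q E h1

include hgen in
/-- **The valuation dictionary.**  The `place`-adic valuation of `x ∈ Kˣ` is
`exp (- ordZ q E (ι x))`. -/
theorem valuation_eq (x : Kˣ) :
    (place q K E ι).valuation K (x : K) = exp (-(ordZ q E (unitsMap K E ι x))) := by
  obtain ⟨c, hc, h⟩ := exists_ordZ_eq_mul q K E ι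
  obtain ⟨ϖ, hϖ⟩ := OrdCore.exists_ordZ_eq_one q E
  obtain ⟨x₀, hx₀⟩ := exists_ordZ_unitsMap_eq q K E ι hgen ϖ
  rw [hϖ, h x₀] at hx₀
  have hc1 : c = 1 := Int.eq_one_of_dvd_one hc.le (Dvd.intro _ hx₀)
  have hx0 : (place q K E ι).valuation K (x : K) ≠ 0 :=
    (Valuation.ne_zero_iff _).mpr x.ne_zero
  rw [h x, hc1, one_mul, neg_neg, exp_log hx0]

include hgen in
/-- The dictionary in additive form. -/
theorem ordZ_unitsMap (x : Kˣ) :
    ordZ q E (unitsMap K E ι x) = -(log ((place q K E ι).valuation K (x : K))) := by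
  rw [valuation_eq q K E ι hgen x, log_exp, neg_neg]

end Valuation

/-! ### Approximation -/

section Approx

variable (hgen : Algebra.adjoin ℚ_[q] (Set.range ι) = ⊤)

omit [NumberField K] in
include hgen in
/-- Every unit of `E` is a unit of `K` times a unit of the integers. -/
theorem exists_div_mem_unitGroup (y : Eˣ) :
    ∃ x : Kˣ, y * (unitsMap K E ι x)⁻¹ ∈ unitGroup q E := by
  obtain ⟨x, hx⟩ := exists_ordZ_unitsMap_eq q K E ι hgen y
  refine ⟨x, ?_⟩
  rw [OrdCore.mem_unitGroup_iff_ordZ, OrdCore.ordZ_mul, OrdCore.ordZ_inv, hx]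
  ring

omit [NumberField K] in
include hgen in
/-- Weak approximation at one local component: every unit of `E` is a unit of `K` times a
principal unit of arbitrarily high level. -/
theorem exists_eq_mul_one_add (y : Eˣ) (N : ℕ) :
    ∃ x : Kˣ, ∃ z ∈ integers q E, (y : E) = ι (x : K) * (1 + (q : E) ^ N * z) := by
  have hy := OrdCore.spectralNorm_pos_of_ne_zero q E y.ne_zero
  have hq0 : (0 : ℝ) < ‖(q : ℚ_[q])‖ := by
    rw [norm_pos_iff]
    exact_mod_cast (Fact.out : q.Prime).ne_zero
  have hq1 : ‖(q : ℚ_[q])‖ ^ (N + 1) < 1 :=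
    pow_lt_one₀ hq0.le Padic.norm_p_lt_one (Nat.succ_ne_zero N)
  have hε : 0 < ‖(q : ℚ_[q])‖ ^ (N + 1) * spectralNorm ℚ_[q] E (y : E) :=
    mul_pos (pow_pos hq0 _) hy
  obtain ⟨x, hx⟩ := dense q K E ι hgen (y : E) hε
  have hxy : spectralNorm ℚ_[q] E ((y : E) - ι x) < spectralNorm ℚ_[q] E (y : E) := by
    refine hx.trans ?_
    calc ‖(q : ℚ_[q])‖ ^ (N + 1) * spectralNorm ℚ_[q] E (y : E)
        < 1 * spectralNorm ℚ_[q] E (y : E) := mul_lt_mul_of_pos_right hq1 hy
      _ = spectralNorm ℚ_[q] E (y : E) := one_mul _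
  have h1 : spectralNorm ℚ_[q] E (ι x) = spectralNorm ℚ_[q] E (y : E) := by
    apply le_antisymm
    · have h := spectralNorm_sub_le_max q E (y : E) ((y : E) - ι x)
      rw [sub_sub_cancel] at h
      exact h.trans (max_le le_rfl hxy.le)
    · have h := OrdCore.spectralNorm_add_le_max q E ((y : E) - ι x) (ι x)
      rw [sub_add_cancel] at h
      rcases le_max_iff.mp h with h | h
      · exact absurd h (not_le.mpr hxy)
      · exact h
  have hx0 : x ≠ 0 := by
    intro h
    rw [h, map_zero, spectralNorm_zero] at h1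
    exact absurd h1 (ne_of_lt hy)
  have hιx : ι x ≠ 0 := (map_ne_zero ι).mpr hx0
  have hqE : (q : E) = algebraMap ℚ_[q] E (q : ℚ_[q]) := (map_natCast _ q).symm
  have hqE0 : (q : E) ≠ 0 := by
    rw [hqE, Ne, map_eq_zero]
    exact_mod_cast (Fact.out : q.Prime).ne_zero
  have hsq : spectralNorm ℚ_[q] E ((q : E) ^ N) = ‖(q : ℚ_[q])‖ ^ N := by
    rw [hqE, ← map_pow, spectralNorm_extends, norm_pow]
  refine ⟨Units.mk0 x hx0, ((y : E) - ι x) * (ι x * (q : E) ^ N)⁻¹, ?_, ?_⟩
  · rw [OrdCore.mem_integers_iff_spectralNorm, OrdCore.spectralNorm_mul_eq,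
      OrdCore.spectralNorm_inv_eq, OrdCore.spectralNorm_mul_eq, h1, hsq]
    have hpos : 0 < spectralNorm ℚ_[q] E (y : E) * ‖(q : ℚ_[q])‖ ^ N :=
      mul_pos hy (pow_pos hq0 _)
    rw [← div_eq_mul_inv, div_le_one hpos]
    refine hx.le.trans ?_
    rw [pow_succ]
    have h2 : ‖(q : ℚ_[q])‖ ^ N * ‖(q : ℚ_[q])‖ ≤ ‖(q : ℚ_[q])‖ ^ N * 1 :=
      mul_le_mul_of_nonneg_left Padic.norm_p_lt_one.le (pow_pos hq0 _).le
    nlinarith [hy.le, h2]
  · rw [Units.val_mk0]
    field_simp
    ring

end Approx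

/-! ### Unramified primes -/

section Unram

open IsDedekindDomain WithZero

variable (hgen : Algebra.adjoin ℚ_[q] (Set.range ι) = ⊤)

/-- The prime `q` as a unit of `K`. -/
noncomputable def qUnitK : Kˣ :=
  Units.mk0 ((q : ℕ) : K) (by exact_mod_cast (Fact.out : q.Prime).ne_zero)

omit [FiniteDimensional ℚ_[q] E] in
theorem unitsMap_qUnitK : unitsMap K E ι (qUnitK q K) = OrdCore.qUnit q E := by
  apply Units.ext
  rw [coe_unitsMap, OrdCore.coe_qUnit]
  exact map_natCast_eq q K E ι q

include hgen in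
/-- If `q` is unramified in `K` (in the form: `𝓞 K ⧸ (q)` is reduced), then `q` is a uniformizer
of every local component of `K ⊗ ℚ_q`. -/
theorem ordZ_qUnit_eq_one_of_isReduced
    (hred : IsReduced (𝓞 K ⧸ Ideal.span {((q : ℕ) : 𝓞 K)})) :
    ordZ q E (OrdCore.qUnit q E) = 1 := by
  have hrad : (Ideal.span {((q : ℕ) : 𝓞 K)}).IsRadical :=
    (Ideal.isRadical_iff_quotient_reduced _).mpr hred
  have hq0 : ((q : ℕ) : 𝓞 K) ≠ 0 := by exact_mod_cast (Fact.out : q.Prime).ne_zero
  have hI0 : Ideal.span {((q : ℕ) : 𝓞 K)} ≠ ⊥ := by simpa using hq0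
  have hsq := Fermat.Agent.CFT.Glob.UnramReduced.not_le_sq_of_isRadical _ hI0 hrad
    (center q K E ι) (center_isPrime q K E ι)
  rw [Ideal.span_singleton_le_iff_mem] at hsq
  have hmem := natCast_mem_center q K E ι
  -- translate into the valuation
  have hv := valuation_eq q K E ι hgen (qUnitK q K)
  rw [unitsMap_qUnitK] at hv
  have hcoe : ((qUnitK q K : Kˣ) : K) = algebraMap (𝓞 K) K ((q : ℕ) : 𝓞 K) := by
    simp [qUnitK]
  rw [hcoe, HeightOneSpectrum.valuation_of_algebraMap] at hv
  have h1 : (place q K E ι).intValuation ((q : ℕ) : 𝓞 K) ≤ exp (-((1 : ℕ) : ℤ)) := by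
    rw [HeightOneSpectrum.intValuation_le_pow_iff_mem, pow_one]
    exact hmem
  have h2 : ¬ (place q K E ι).intValuation ((q : ℕ) : 𝓞 K) ≤ exp (-((2 : ℕ) : ℤ)) := by
    rw [HeightOneSpectrum.intValuation_le_pow_iff_mem]
    exact hsq
  rw [hv, exp_le_exp] at h1 h2
  push_cast at h1 h2
  omega

include hgen in
/-- If `q` is unramified in `K`, every local component of `K ⊗ ℚ_q` is unramified over `ℚ_q`. -/
theorem isUnram_base_of_isReduced
    (hred : IsReduced (𝓞 K ⧸ Ideal.span {((q : ℕ) : 𝓞 K)})) : IsUnram q ℚ_[q] E := by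
  obtain ⟨e, he, -, hord⟩ := OrdCore.exists_ramIdx q ℚ_[q] E
  rw [OrdCore.isUnram_iff_ramIdx q ℚ_[q] E he hord]
  have h1 := hord (OrdCore.qUnit q ℚ_[q])
  have h2 : OrdCore.unitsIncl ℚ_[q] E (OrdCore.qUnit q ℚ_[q]) = OrdCore.qUnit q E := by
    apply Units.ext
    rfl
  rw [h2, ordZ_qUnit_eq_one_of_isReduced q K E ι hgen hred, OrdCore.ordZ_base,
    OrdCore.coe_qUnit] at h1
  have h3 : Padic.valuation (algebraMap ℚ_[q] ℚ_[q] (q : ℚ_[q])) = 1 := by
    simp
  rw [h3, mul_one] at h1
  exact_mod_cast h1.symm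

omit [NumberField K] [FiniteDimensional ℚ_[q] E] in
/-- An extension which is unramified over `ℚ_q` is unramified over every intermediate field. -/
theorem isUnram_of_isUnram_base (F : Type) [Field F] [Algebra ℚ_[q] F] [Algebra F E]
    [IsScalarTower ℚ_[q] F E] (h : IsUnram q ℚ_[q] E) : IsUnram q F E := by
  intro x
  obtain ⟨y, hy⟩ := h x
  refine ⟨Units.map (algebraMap ℚ_[q] F).toMonoidHom y, ?_⟩
  have h1 : Units.map (algebraMap F E).toMonoidHom (Units.map (algebraMap ℚ_[q] F).toMonoidHom y) =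
      Units.map (algebraMap ℚ_[q] E).toMonoidHom y := by
    apply Units.ext
    exact (IsScalarTower.algebraMap_apply ℚ_[q] F E (y : ℚ_[q])).symm
  rw [h1]
  exact hy

include hgen in
/-- **Unramified primes give unramified local extensions.**  If `q` is unramified in `K`, every
local component `E` of `K ⊗ ℚ_q` is unramified over every intermediate field `F`. -/
theorem isUnram_of_isReduced (F : Type) [Field F] [Algebra ℚ_[q] F] [Algebra F E]
    [IsScalarTower ℚ_[q] F E]
    (hred : IsReduced (𝓞 K ⧸ Ideal.span {((q : ℕ) : 𝓞 K)})) : IsUnram q F E :=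
  isUnram_of_isUnram_base q E F (isUnram_base_of_isReduced q K E ι hgen hred)

end Unram

/-! ### Local components of the semilocal algebra -/

section Component

open scoped TensorProduct

omit [FiniteDimensional ℚ_[q] E] in
/-- A quotient field of `K ⊗[ℚ] ℚ_[q]` is generated over `ℚ_[q]` by the image of `K`. -/
theorem adjoin_eq_top_of_surjective (π : K ⊗[ℚ] ℚ_[q] →+* E) (hπ : Function.Surjective π)
    (hc : ∀ c : ℚ_[q], π ((1 : K) ⊗ₜ[ℚ] c) = algebraMap ℚ_[q] E c) :
    Algebra.adjoin ℚ_[q] (Set.range (π.comp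
      (Algebra.TensorProduct.includeLeft : K →ₐ[ℚ] K ⊗[ℚ] ℚ_[q]).toRingHom)) = ⊤ := by
  rw [eq_top_iff]
  intro e _
  obtain ⟨t, rfl⟩ := hπ e
  clear * - hc
  induction t using TensorProduct.induction_on with
  | zero => rw [map_zero]; exact Subalgebra.zero_mem _
  | tmul k c =>
    have h1 : (k ⊗ₜ[ℚ] c : K ⊗[ℚ] ℚ_[q]) = (k ⊗ₜ[ℚ] (1 : ℚ_[q])) * ((1 : K) ⊗ₜ[ℚ] c) := by
      rw [Algebra.TensorProduct.tmul_mul_tmul, mul_one, one_mul]
    rw [h1, map_mul, hc]
    refine Subalgebra.mul_mem _ (Algebra.subset_adjoin ⟨k, rfl⟩) (Subalgebra.algebraMap_mem _ c)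
  | add x y hx hy => rw [map_add]; exact Subalgebra.add_mem _ hx hy

end Component

end Fermat.Agent.CFT.Bridge.CompDict
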