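import Mathlib
import Fermat.Agent.CFT.Bridge.CompDict
import Fermat.Agent.CFT.Local.IntRing

/-!
# The residue-field dictionary between a local component of `K ⊗ ℚ_q` and a prime of `𝓞 K`

Setting of `Bridge/CompDict`: `K` a number field, `E` a finite extension of `ℚ_[q]`,
`ι : K →+* E` with `Algebra.adjoin ℚ_[q] (Set.range ι) = ⊤`.

* `ordAt q E : IntRing.OrdAt q E` (unconditional, from `OrdCore`);
* `toInt q K E ι : 𝓞 K →+* IntRing.OInt q E`;
* `resEquiv` : `𝓞 K ⧸ center q K E ι ≃+* O_E ⧸ 𝔪_E` (the residue fields agree);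
* `natCard_quot_center` : `Nat.card (𝓞 K ⧸ center q K E ι) = resCard q E`;
* `absNorm_center` : `Ideal.absNorm (center q K E ι) = resCard q E` — the absolute norm of the
  prime of `𝓞 K` below the component is the local residue cardinality `q ^ fDeg q E`.
-/

set_option autoImplicit false
set_option linter.style.haveILetI false

namespace Fermat.Agent.CFT.Bridge.CompDictRes

open Fermat.Agent.CFT.Local NumberField IsLocalRing
open Fermat.Agent.CFT.Bridge.CompDict

attribute [local instance] intAlgebra IntRing.towerInt IntRing.torsionFreeInt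

variable (q : ℕ) [Fact q.Prime] (K : Type) [Field K]
  (E : Type) [Field E] [Algebra ℚ_[q] E] [FiniteDimensional ℚ_[q] E] (ι : K →+* E)

/-- The structure statement `IntRing.OrdAt` holds unconditionally. -/
theorem ordAt : IntRing.OrdAt q E := by
  obtain ⟨h1, -, h3, h4, h5, h6, h7, h8, -, -, h11⟩ := OrdCore.ordStmt_at q E
  exact ⟨h1, h3, h4, h5, h6, h7, h8, h11⟩

theorem isLocalRing_OInt : IsLocalRing (IntRing.OInt q E) := IntRing.isLocalRing q E (ordAt q E)

omit [FiniteDimensional ℚ_[q] E] in
/-- The map `𝓞 K → O_E` induced by `ι`. -/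
noncomputable def toInt : 𝓞 K →+* IntRing.OInt q E where
  toFun a := ⟨ι (a : K), map_mem_integers q K E ι a⟩
  map_one' := Subtype.ext (by simp)
  map_mul' a b := Subtype.ext (by simp)
  map_zero' := Subtype.ext (by simp)
  map_add' a b := Subtype.ext (by simp)

omit [FiniteDimensional ℚ_[q] E] in
@[simp] theorem coe_toInt (a : 𝓞 K) : ((toInt q K E ι a : IntRing.OInt q E) : E) = ι (a : K) := rfl

/-- The map `𝓞 K → O_E ⧸ 𝔪_E`. -/
noncomputable def toRes [IsLocalRing (IntRing.OInt q E)] :
    𝓞 K →+* IntRing.OInt q E ⧸ maximalIdeal (IntRing.OInt q E) :=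
  (Ideal.Quotient.mk _).comp (toInt q K E ι)

theorem ker_toRes [IsLocalRing (IntRing.OInt q E)] :
    RingHom.ker (toRes q K E ι) = center q K E ι := by
  ext a
  rw [RingHom.mem_ker, toRes, RingHom.comp_apply, Ideal.Quotient.eq_zero_iff_mem,
    IntRing.mem_maximalIdeal_iff, coe_toInt, mem_center]

variable [NumberField K]

section

variable (hgen : Algebra.adjoin ℚ_[q] (Set.range ι) = ⊤)
include hgen

/-- Elements of `K` mapping to integers of `E` are integral at `place`. -/
theorem valuation_le_one_of_map_mem_integers (x : K) (hx : ι x ∈ integers q E) :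
    (place q K E ι).valuation K x ≤ 1 := by
  by_cases hx0 : x = 0
  · rw [hx0, map_zero]
    exact zero_le
  · have h := valuation_eq q K E ι hgen (Units.mk0 x hx0)
    rw [Units.val_mk0] at h
    rw [h, ← WithZero.exp_zero, WithZero.exp_le_exp]
    have h2 : 0 ≤ ordZ q E (unitsMap K E ι (Units.mk0 x hx0)) :=
      (OrdCore.mem_integers_iff_ordZ q E _).1 hx
    linarith

theorem toRes_surjective [IsLocalRing (IntRing.OInt q E)] :
    Function.Surjective (toRes q K E ι) := by
  intro y'
  obtain ⟨y, rfl⟩ := Ideal.Quotient.mk_surjective y'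
  -- approximate `y` by an element of `K`
  obtain ⟨x, hx⟩ := dense q K E ι hgen (y : E) one_pos
  have hmax : (y : E) - ι x ∈ maxIdeal q E := (OrdCore.mem_maxIdeal_iff_spectralNorm q E _).2 hx
  have hyint : (y : E) ∈ integers q E := y.2
  have hxint : ι x ∈ integers q E := by
    have h := (integers q E).sub_mem hyint hmax.1
    rwa [sub_sub_cancel] at h
  -- write `x = n / d` with `d` outside the centre
  have hv := valuation_le_one_of_map_mem_integers q K E ι hgen x hxint
  obtain ⟨n, d, hnd⟩ := (place q K E ι).exists_primeCompl_mul_eq_of_integer x hv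
  have hd : (d : 𝓞 K) ∉ center q K E ι := d.2
  haveI hmaxc : (center q K E ι).IsMaximal :=
    (center_isPrime q K E ι).isMaximal (center_ne_bot q K E ι)
  obtain ⟨t, ht⟩ := Ideal.Quotient.exists_inv (I := center q K E ι)
    (a := Ideal.Quotient.mk _ (d : 𝓞 K)) (by rwa [Ne, Ideal.Quotient.eq_zero_iff_mem])
  obtain ⟨t, rfl⟩ := Ideal.Quotient.mk_surjective t
  rw [← map_mul, ← map_one (Ideal.Quotient.mk (center q K E ι)), Ideal.Quotient.eq] at ht
  -- `ht : d * t - 1 ∈ center`
  refine ⟨n * t, ?_⟩
  have hφd : toRes q K E ι ((d : 𝓞 K) * t) = 1 := by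
    rw [← map_one (toRes q K E ι), ← sub_eq_zero, ← map_sub, ← RingHom.mem_ker, ker_toRes]
    exact ht
  have hxd : (Ideal.Quotient.mk (maximalIdeal (IntRing.OInt q E))) ⟨ι x, hxint⟩ *
      toRes q K E ι (d : 𝓞 K) = toRes q K E ι n := by
    rw [toRes, RingHom.comp_apply, RingHom.comp_apply, ← map_mul]
    congr 1
    apply Subtype.ext
    show ι x * ι ((d : 𝓞 K) : K) = ι (n : K)
    rw [← map_mul]
    exact congrArg ι hnd
  have hy : (Ideal.Quotient.mk (maximalIdeal (IntRing.OInt q E))) y =
      (Ideal.Quotient.mk (maximalIdeal (IntRing.OInt q E))) ⟨ι x, hxint⟩ := by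
    rw [Ideal.Quotient.eq, IntRing.mem_maximalIdeal_iff]
    exact hmax
  rw [hy, map_mul, ← hxd, mul_assoc, ← map_mul, hφd, mul_one]

/-- **The residue fields agree**: `𝓞 K ⧸ center ≃+* O_E ⧸ 𝔪_E`. -/
noncomputable def resEquiv [IsLocalRing (IntRing.OInt q E)] :
    (𝓞 K ⧸ center q K E ι) ≃+* (IntRing.OInt q E ⧸ maximalIdeal (IntRing.OInt q E)) :=
  (Ideal.quotEquivOfEq (ker_toRes q K E ι).symm).trans
    (RingHom.quotientKerEquivOfSurjective (toRes_surjective q K E ι hgen))

/-- **(D3)** The residue field of the prime of `𝓞 K` below the local component `E` has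
`resCard q E = q ^ fDeg q E` elements. -/
theorem natCard_quot_center : Nat.card (𝓞 K ⧸ center q K E ι) = resCard q E := by
  haveI := isLocalRing_OInt q E
  rw [← IntRing.card_residue (ordAt q E)]
  exact Nat.card_congr (resEquiv q K E ι hgen).toEquiv

/-- The absolute norm of the centre is the local residue cardinality. -/
theorem absNorm_center : Ideal.absNorm (center q K E ι) = resCard q E := by
  rw [Ideal.absNorm_apply, Submodule.cardQuot_apply]
  exact natCard_quot_center q K E ι hgen

theorem absNorm_center_eq_pow : Ideal.absNorm (center q K E ι) = q ^ fDeg q E :=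
  absNorm_center q K E ι hgen

end

end Fermat.Agent.CFT.Bridge.CompDictRes
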