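import Mathlib
import Fermat.Agent.CFT.Global.Defs
import Fermat.Agent.CFT.Local.Defs
import Fermat.Agent.CFT.Local.Plan

/-!
# CFT program, bridge Local → Global: the local components `[LocComp]` (helper46)

The Global layer models a place `w ∣ q` of a number field `L` as a maximal ideal `m` of the
semilocal algebra `SemiLocal L q = L ⊗[ℚ] ℚ_[q]`, the completion `L_w` as the quotient
`SemiLocal L q ⧸ m`, and `L_wˣ` as the module `localCompRep G L q m` over the decomposition group
`decompGroup G L q m`.  The Local layer speaks about abstract finite extensions `F ⊆ E` of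
`ℚ_[q]` and the `Gal(E/F)`-module `Local.unitsRep F E`.  This file is the dictionary.

* Generic (pure fields): for a finite group `D` acting faithfully on a field `E`,
  `cohIsoGen D E n : Hⁿ(D, Eˣ) ≅ Hⁿ(Gal(E/E^D), Eˣ)` (with `E^D = FixedPoints.subfield D E` and
  Mathlib's `FixedPoints.toAlgAutMulEquiv D E : D ≃* (E ≃ₐ[E^D] E)`), and Hilbert 90
  `isZero_H1_gen`.
* `q`-adic: if `E` is a finite extension of `ℚ_[q]` and `D` acts by `ℚ_[q]`-algebra
  automorphisms, then `E^D` is a finite extension of `ℚ_[q]` (`fixAlgebra`, `fix_isScalarTower`,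
  `fix_finiteDimensional`), so every Local statement applies to `(F, E) = (E^D, E)`;
  `card_H2_gen : Local.Plan.H2Card → |H²(D, Eˣ)| = |D|`.
* Global: the local component `SemiLocal L q ⧸ m` is a finite `ℚ_[q]`-algebra (`compAlgebra`,
  `comp_finiteDimensional`), the decomposition group acts `ℚ_[q]`-linearly
  (`decomp_smul_algebraMap`); `isZero_H1_comp`, `card_H2_comp`.
* `locH1`, `locH2Card` : the bodies of `[C1] LocH1` and `[C2] LocH2Card` of the Global plan,
  verbatim, from `[B4] LocFaithful` (and `Local.Plan.H2Card`).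
-/

set_option autoImplicit false
set_option linter.style.haveILetI false
set_option linter.unusedSectionVars false

namespace Fermat.Agent.CFT.Bridge.LocComp

open CategoryTheory groupCohomology TensorProduct
open scoped Fermat.Agent.CFT.Global
open Fermat.Agent.CFT Fermat.Agent.CFT.Global

/-! ## Generic: a finite group acting faithfully on a field -/

section Generic

variable (D : Type) [Group D] [Finite D] (E : Type) [Field E] [MulSemiringAction D E]
  [FaithfulSMul D E]

/-- The cohomology of the `D`-module `Eˣ` (a finite group `D` acting faithfully on the field `E`)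
is the Galois cohomology of `E` over the fixed field. -/
noncomputable def cohIsoGen (n : ℕ) :
    groupCohomology (Rep.ofMulDistribMulAction D Eˣ) n ≅
      groupCohomology (Local.unitsRep (FixedPoints.subfield D E) E) n :=
  groupCohomology.mapIso (FixedPoints.toAlgAutMulEquiv D E) (LinearEquiv.refl ℤ _)
    (fun g => by
      ext x
      rfl) n

/-- Hilbert 90 for a finite group acting faithfully on a field. -/
theorem isZero_H1_gen : Limits.IsZero (groupCohomology (Rep.ofMulDistribMulAction D Eˣ) 1) := by
  have h : Limits.IsZero (groupCohomology (Local.unitsRep (FixedPoints.subfield D E) E) 1) := by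
    have : Subsingleton
        (groupCohomology.H1 (Rep.ofAlgebraAutOnUnits (FixedPoints.subfield D E) E)) :=
      inferInstance
    exact ModuleCat.isZero_of_subsingleton _
  exact Limits.IsZero.of_iso h (cohIsoGen D E 1)

end Generic

/-! ## `q`-adic: a finite group acting on a finite extension of `ℚ_[q]` -/

section Padic

variable (q : ℕ) [Fact q.Prime] (D : Type) [Group D] [Finite D] (E : Type) [Field E]
  [Algebra ℚ_[q] E] [MulSemiringAction D E]

/-- The `ℚ_[q]`-algebra structure of the fixed field of a group acting by `ℚ_[q]`-algebra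
automorphisms. -/
@[reducible] noncomputable def fixAlgebra
    (hc : ∀ (d : D) (c : ℚ_[q]), d • algebraMap ℚ_[q] E c = algebraMap ℚ_[q] E c) :
    Algebra ℚ_[q] (FixedPoints.subfield D E) :=
  ((algebraMap ℚ_[q] E).codRestrict (FixedPoints.subfield D E) (fun c d => hc d c)).toAlgebra

theorem fix_isScalarTower
    (hc : ∀ (d : D) (c : ℚ_[q]), d • algebraMap ℚ_[q] E c = algebraMap ℚ_[q] E c) :
    letI := fixAlgebra q D E hc
    IsScalarTower ℚ_[q] (FixedPoints.subfield D E) E :=
  letI := fixAlgebra q D E hc
  IsScalarTower.of_algebraMap_eq (fun _ => rfl)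

theorem fix_finiteDimensional [FiniteDimensional ℚ_[q] E]
    (hc : ∀ (d : D) (c : ℚ_[q]), d • algebraMap ℚ_[q] E c = algebraMap ℚ_[q] E c) :
    letI := fixAlgebra q D E hc
    FiniteDimensional ℚ_[q] (FixedPoints.subfield D E) :=
  letI := fixAlgebra q D E hc
  haveI := fix_isScalarTower q D E hc
  FiniteDimensional.left ℚ_[q] (FixedPoints.subfield D E) E

/-- **[C2], generic form**: local class field theory gives `|H²(D, Eˣ)| = |D|`. -/
theorem card_H2_gen (hLoc : Local.Plan.H2Card) [FiniteDimensional ℚ_[q] E] [FaithfulSMul D E]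
    (hc : ∀ (d : D) (c : ℚ_[q]), d • algebraMap ℚ_[q] E c = algebraMap ℚ_[q] E c) :
    Nat.card (groupCohomology (Rep.ofMulDistribMulAction D Eˣ) 2) = Nat.card D := by
  letI := fixAlgebra q D E hc
  haveI := fix_isScalarTower q D E hc
  haveI := fix_finiteDimensional q D E hc
  have h := (hLoc q (FixedPoints.subfield D E) E).2
  have e := (cohIsoGen D E 2).toLinearEquiv.toEquiv
  rw [Nat.card_congr e, h]
  cases nonempty_fintype D
  rw [FixedPoints.finrank_eq_card, Nat.card_eq_fintype_card]

end Padic

/-! ## Global: the local components of the semilocal algebra -/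

section Global

variable (G : Type) [Group G] (L : Type) [Field L] [NumberField L] [MulSemiringAction G L]
variable (q : ℕ) [Fact q.Prime] (m : Ideal (SemiLocal L q))

/-- The `ℚ_[q]`-algebra structure of a local component: `c ↦ (1 ⊗ c) mod m`.  (A reducible
definition, not a global instance.) -/
@[reducible] noncomputable def compAlgebra : Algebra ℚ_[q] (SemiLocal L q ⧸ m) :=
  ((Ideal.Quotient.mk m).comp
    (Algebra.TensorProduct.includeRight (R := ℚ) (A := L) (B := ℚ_[q])).toRingHom).toAlgebra

theorem compAlgebra_algebraMap (c : ℚ_[q]) :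
    letI := compAlgebra L q m
    algebraMap ℚ_[q] (SemiLocal L q ⧸ m) c = Ideal.Quotient.mk m ((1 : L) ⊗ₜ[ℚ] c) := rfl

/-- The decomposition group acts on the local component by `ℚ_[q]`-algebra automorphisms. -/
theorem decomp_smul_algebraMap (d : decompGroup G L q m) (c : ℚ_[q]) :
    letI := compAlgebra L q m
    d • algebraMap ℚ_[q] (SemiLocal L q ⧸ m) c = algebraMap ℚ_[q] (SemiLocal L q ⧸ m) c := by
  letI := compAlgebra L q m
  rw [compAlgebra_algebraMap, decomp_smul_mk]
  congr 1
  rw [smul_tmul_eq, smul_one]

/-- A local component is finite over `ℚ_[q]`. -/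
theorem comp_finiteDimensional :
    letI := compAlgebra L q m
    Module.Finite ℚ_[q] (SemiLocal L q ⧸ m) := by
  letI := compAlgebra L q m
  let φ : ℚ_[q] ⊗[ℚ] L →+* SemiLocal L q ⧸ m :=
    (Ideal.Quotient.mk m).comp (Algebra.TensorProduct.comm ℚ ℚ_[q] L).toAlgHom.toRingHom
  let f : ℚ_[q] ⊗[ℚ] L →ₗ[ℚ_[q]] SemiLocal L q ⧸ m :=
    { toFun := φ
      map_add' := map_add φ
      map_smul' := fun c x => by
        rw [Algebra.smul_def, Algebra.smul_def, map_mul]
        congr 1 }
  have hf : Function.Surjective f := by
    intro y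
    obtain ⟨x, rfl⟩ := Ideal.Quotient.mk_surjective y
    exact ⟨(Algebra.TensorProduct.comm ℚ ℚ_[q] L).symm x, by simp [f, φ]⟩
  exact Module.Finite.of_surjective f hf

variable [Finite G] [hm : m.IsMaximal]

/-- Hilbert 90 for a local component (instance form of `[C1]`). -/
theorem isZero_H1_comp [FaithfulSMul (decompGroup G L q m) (SemiLocal L q ⧸ m)] :
    Limits.IsZero (groupCohomology (localCompRep G L q m) 1) := by
  letI := Ideal.Quotient.field m
  exact isZero_H1_gen (decompGroup G L q m) (SemiLocal L q ⧸ m)

/-- `|H²(D_w, L_wˣ)| = |D_w|` (instance form of `[C2]`). -/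
theorem card_H2_comp (hLoc : Local.Plan.H2Card)
    [FaithfulSMul (decompGroup G L q m) (SemiLocal L q ⧸ m)] :
    Nat.card (groupCohomology (localCompRep G L q m) 2) = Nat.card (decompGroup G L q m) := by
  letI := Ideal.Quotient.field m
  letI := compAlgebra L q m
  haveI := comp_finiteDimensional L q m
  exact card_H2_gen q (decompGroup G L q m) (SemiLocal L q ⧸ m) hLoc
    (decomp_smul_algebraMap G L q m)

end Global

/-! ## The Plan bodies, verbatim -/

/-- **[C1]** (`Plan.LocH1` of the Global plan) from `[B4]` (`Plan.LocFaithful`). -/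
theorem locH1
    (hB4 : ∀ (G L : Type) [Group G] [Fintype G] [Field L] [NumberField L] [MulSemiringAction G L]
      [FaithfulSMul G L] (q : ℕ) [Fact q.Prime] (m : Ideal (SemiLocal L q)), m.IsMaximal →
      FaithfulSMul (decompGroup G L q m) (SemiLocal L q ⧸ m)) :
    ∀ (G L : Type) [Group G] [Fintype G] [Field L] [NumberField L] [MulSemiringAction G L]
      [FaithfulSMul G L] (q : ℕ) [Fact q.Prime] (m : Ideal (SemiLocal L q)), m.IsMaximal →
      Limits.IsZero (groupCohomology (localCompRep G L q m) 1) := by
  intro G L _ _ _ _ _ _ q _ m hm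
  haveI := hB4 G L q m hm
  exact isZero_H1_comp G L q m

/-- **[C2]** (`Plan.LocH2Card` of the Global plan) from the local `H2Card` and `[B4]`. -/
theorem locH2Card (hLoc : Local.Plan.H2Card)
    (hB4 : ∀ (G L : Type) [Group G] [Fintype G] [Field L] [NumberField L] [MulSemiringAction G L]
      [FaithfulSMul G L] (q : ℕ) [Fact q.Prime] (m : Ideal (SemiLocal L q)), m.IsMaximal →
      FaithfulSMul (decompGroup G L q m) (SemiLocal L q ⧸ m)) :
    ∀ (G L : Type) [Group G] [Fintype G] [Field L] [NumberField L] [MulSemiringAction G L]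
      [FaithfulSMul G L] (q : ℕ) [Fact q.Prime] (m : Ideal (SemiLocal L q)), m.IsMaximal →
      Nat.card (groupCohomology (localCompRep G L q m) 2) = Nat.card (decompGroup G L q m) := by
  intro G L _ _ _ _ _ _ q _ m hm
  haveI := hB4 G L q m hm
  exact card_H2_comp G L q m hLoc

end Fermat.Agent.CFT.Bridge.LocComp
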