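import Mathlib
import Fermat.Agent.CFT.Bridge.CompDictRes
import Fermat.Agent.CFT.Bridge.LocComp
import Fermat.Agent.CFT.Global.CountDict
import Fermat.Agent.CFT.Global.QBridgeDiv

/-!
# The place dictionary of the Global model (helper46)

Global/Defs models a place `w ∣ q` of a number field `L` as a maximal ideal `m` of
`SemiLocal L q = L ⊗[ℚ] ℚ_[q]` and the completion as `SemiLocal L q ⧸ m`.  This file identifies
these places with the primes of `𝓞 L` above `q`, compatibly with everything the Local layer
and the ideal-theoretic Global files use.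

For `m` maximal (`E := SemiLocal L q ⧸ m`, with `Ideal.Quotient.field m` and
`LocComp.compAlgebra L q m`):

* `compEmb L q m : L →+* E`, `compEmb_adjoin` (the image generates `E` over `ℚ_[q]`, so all of
  `Bridge/CompDict` applies);
* `compCenter L q m : Ideal (𝓞 L)` — the prime below `m` (`mem_compCenter`, `compCenter_isPrime`,
  `natCast_mem_compCenter`, `compCenter_ne_bot`), `compPlace`, `compPrimeOver`;
* `absNorm_compCenter` : `Ideal.absNorm (compCenter L q m) = resCard q E` (residue fields);
* `compCenter_eq_placeBelow` (= helper42's `CountDict.placeBelow`), `compCenter_injective`,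
  `exists_compCenter_eq` (every prime above `q` is the centre of a unique place);
* `smul_mem_compCenter_iff` (Galois equivariance) and
  **`decompGroup_eq_stabilizer : decompGroup G L q m = MulAction.stabilizer G (compCenter L q m)`**
  for any group `G` acting on `L` (pointwise action on ideals of `𝓞 L`);
* **`divq_eq_ordZ`** : the component at `compPrimeOver L q m` of helper84's divisor map
  `QBridge.divq q L x` is `Local.ordZ q E (compUnits L q m x)`;
  `mk_mem_integers`, `compUnits_mem_unitGroup` (the maximal order maps to the local integers);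
* pure local: `mem_integers_ringEquiv`, `mem_maxIdeal_ringEquiv` (`ℚ_[q]`-isomorphisms preserve
  integers and the maximal ideal), `spectralNorm_congr_algebra`.
-/

set_option autoImplicit false
set_option linter.style.haveILetI false
set_option linter.unusedSectionVars false

namespace Fermat.Agent.CFT.Bridge.CompPlace

open TensorProduct NumberField
open scoped Pointwise
open Fermat.Agent.CFT Fermat.Agent.CFT.Local Fermat.Agent.CFT.Global
open Fermat.Agent.CFT.Bridge.CompDict Fermat.Agent.CFT.Bridge.LocComp

/-! ## Pure local: `ℚ_[q]`-isomorphisms preserve integers and the maximal ideal -/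

section Iso

variable (q : ℕ) [Fact q.Prime] {E E' : Type} [Field E] [Field E'] [Algebra ℚ_[q] E]
  [Algebra ℚ_[q] E']

theorem map_mem_integers_of_ringHom (σ : E →+* E')
    (hσ : ∀ c : ℚ_[q], σ (algebraMap ℚ_[q] E c) = algebraMap ℚ_[q] E' c) {x : E}
    (hx : x ∈ integers q E) : σ x ∈ integers q E' := by
  letI := intAlgebra q E
  letI := intAlgebra q E'
  let f : E →ₐ[ℤ_[q]] E' := { σ with commutes' := fun z => hσ (z : ℚ_[q]) }
  have h : IsIntegral ℤ_[q] x := hx
  exact h.map f

theorem mem_integers_ringEquiv (σ : E ≃+* E')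
    (hσ : ∀ c : ℚ_[q], σ (algebraMap ℚ_[q] E c) = algebraMap ℚ_[q] E' c) (x : E) :
    σ x ∈ integers q E' ↔ x ∈ integers q E := by
  refine ⟨fun h => ?_, fun h => map_mem_integers_of_ringHom q σ.toRingHom hσ h⟩
  have hσ' : ∀ c : ℚ_[q], σ.symm (algebraMap ℚ_[q] E' c) = algebraMap ℚ_[q] E c := by
    intro c
    rw [← hσ c, RingEquiv.symm_apply_apply]
  have := map_mem_integers_of_ringHom q σ.symm.toRingHom hσ' h
  simpa using this

theorem mem_maxIdeal_ringEquiv (σ : E ≃+* E')
    (hσ : ∀ c : ℚ_[q], σ (algebraMap ℚ_[q] E c) = algebraMap ℚ_[q] E' c) (x : E) :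
    σ x ∈ maxIdeal q E' ↔ x ∈ maxIdeal q E := by
  show (σ x ∈ integers q E' ∧ (σ x = 0 ∨ (σ x)⁻¹ ∉ integers q E')) ↔
    (x ∈ integers q E ∧ (x = 0 ∨ x⁻¹ ∉ integers q E))
  rw [mem_integers_ringEquiv q σ hσ, ← map_inv₀, mem_integers_ringEquiv q σ hσ,
    EmbeddingLike.map_eq_zero_iff]

end Iso


section Comp

variable (L : Type) [Field L] [NumberField L] (q : ℕ) [Fact q.Prime]
  (m : Ideal (SemiLocal L q))

/-- The embedding of `L` into the local component `SemiLocal L q ⧸ m`. -/
noncomputable def compEmb : L →+* SemiLocal L q ⧸ m :=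
  (Ideal.Quotient.mk m).comp
    (Algebra.TensorProduct.includeLeft (R := ℚ) (S := ℚ) (A := L) (B := ℚ_[q])).toRingHom

theorem compEmb_apply (a : L) : compEmb L q m a = Ideal.Quotient.mk m (a ⊗ₜ[ℚ] (1 : ℚ_[q])) := rfl

variable [hm : m.IsMaximal]

/-- The image of `L` generates the local component over `ℚ_[q]`. -/
theorem compEmb_adjoin :
    letI := Ideal.Quotient.field m
    letI := compAlgebra L q m
    Algebra.adjoin ℚ_[q] (Set.range (compEmb L q m)) = ⊤ := by
  letI := Ideal.Quotient.field m
  letI := compAlgebra L q m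
  exact adjoin_eq_top_of_surjective q L (SemiLocal L q ⧸ m) (Ideal.Quotient.mk m)
    Ideal.Quotient.mk_surjective (fun _ => rfl)

/-- The prime of `𝓞 L` below the place `m` of `L ⊗[ℚ] ℚ_[q]`. -/
noncomputable def compCenter : Ideal (𝓞 L) :=
  letI := Ideal.Quotient.field m
  letI := compAlgebra L q m
  haveI := comp_finiteDimensional L q m
  center q L (SemiLocal L q ⧸ m) (compEmb L q m)

theorem mem_compCenter (a : 𝓞 L) :
    letI := Ideal.Quotient.field m
    letI := compAlgebra L q m
    a ∈ compCenter L q m ↔ compEmb L q m (a : L) ∈ maxIdeal q (SemiLocal L q ⧸ m) := Iff.rfl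

instance compCenter_isPrime : (compCenter L q m).IsPrime := by
  letI := Ideal.Quotient.field m
  letI := compAlgebra L q m
  haveI := comp_finiteDimensional L q m
  exact center_isPrime q L (SemiLocal L q ⧸ m) (compEmb L q m)

theorem natCast_mem_compCenter : ((q : ℕ) : 𝓞 L) ∈ compCenter L q m := by
  letI := Ideal.Quotient.field m
  letI := compAlgebra L q m
  haveI := comp_finiteDimensional L q m
  exact natCast_mem_center q L (SemiLocal L q ⧸ m) (compEmb L q m)

theorem compCenter_ne_bot : compCenter L q m ≠ ⊥ := by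
  letI := Ideal.Quotient.field m
  letI := compAlgebra L q m
  haveI := comp_finiteDimensional L q m
  exact center_ne_bot q L (SemiLocal L q ⧸ m) (compEmb L q m)

/-- **(D3) in the Global model**: the absolute norm of the prime below `m` is the residue
cardinality of the local component. -/
theorem absNorm_compCenter :
    letI := Ideal.Quotient.field m
    letI := compAlgebra L q m
    Ideal.absNorm (compCenter L q m) = resCard q (SemiLocal L q ⧸ m) := by
  letI := Ideal.Quotient.field m
  letI := compAlgebra L q m
  haveI := comp_finiteDimensional L q m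
  exact CompDictRes.absNorm_center q L (SemiLocal L q ⧸ m) (compEmb L q m) (compEmb_adjoin L q m)

end Comp

/-- The spectral norm only depends on the structure map. -/
theorem spectralNorm_congr_algebra {K E : Type*} [NormedField K] [Field E] (i₁ i₂ : Algebra K E)
    (h : ∀ c : K, @algebraMap K E _ _ i₁ c = @algebraMap K E _ _ i₂ c) (x : E) :
    @spectralNorm K _ E _ i₁ x = @spectralNorm K _ E _ i₂ x := by
  have h1 : i₁ = i₂ := Algebra.algebra_ext _ _ h
  subst h1
  rfl

section Count

variable (L : Type) [Field L] [NumberField L] (q : ℕ) [Fact q.Prime]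

/-- The centre of a place is helper42's `CountDict.placeBelow`. -/
theorem compCenter_eq_placeBelow (M : MaximalSpectrum (L ⊗[ℚ] ℚ_[q])) :
    haveI := M.isMaximal
    compCenter L q M.asIdeal = (CountDict.placeBelow M).asIdeal := by
  haveI := M.isMaximal
  letI := Ideal.Quotient.field M.asIdeal
  letI := compAlgebra L q M.asIdeal
  haveI := comp_finiteDimensional L q M.asIdeal
  ext a
  rw [CountDict.mem_placeBelow]
  show a ∈ center q L (SemiLocal L q ⧸ M.asIdeal) (compEmb L q M.asIdeal) ↔ _
  rw [mem_center_iff_spectralNorm, compEmb_apply]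
  refine Iff.of_eq ?_
  congr 1

/-- The centre determines the place. -/
theorem compCenter_injective (m m' : Ideal (SemiLocal L q)) [hm : m.IsMaximal]
    [hm' : m'.IsMaximal] (h : compCenter L q m = compCenter L q m') : m = m' := by
  have h1 := compCenter_eq_placeBelow L q ⟨m, hm⟩
  have h2 := compCenter_eq_placeBelow L q ⟨m', hm'⟩
  have h3 : CountDict.placeBelow (⟨m, hm⟩ : MaximalSpectrum (L ⊗[ℚ] ℚ_[q])) =
      CountDict.placeBelow ⟨m', hm'⟩ := by
    apply IsDedekindDomain.HeightOneSpectrum.ext
    rw [← h1, ← h2]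
    exact h
  exact congrArg MaximalSpectrum.asIdeal (CountDict.placeBelow_injective h3)

/-- Every prime of `𝓞 L` above `q` is the centre of a place. -/
theorem exists_compCenter_eq (Q : Ideal (𝓞 L)) [hQ : Q.IsPrime] (hq : ((q : ℕ) : 𝓞 L) ∈ Q) :
    ∃ (m : Ideal (SemiLocal L q)) (hm : m.IsMaximal), @compCenter L _ _ q _ m hm = Q := by
  have hQ0 : Q ≠ ⊥ := by
    intro h
    rw [h, Ideal.mem_bot] at hq
    have hq0 : (q : 𝓞 L) ≠ 0 := Nat.cast_ne_zero.mpr (Fact.out : q.Prime).ne_zero
    exact hq0 hq
  obtain ⟨M, hM⟩ := CountDict.placeBelow_surjective (q := q)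
    (⟨Q, hQ, hQ0⟩ : IsDedekindDomain.HeightOneSpectrum (𝓞 L)) hq
  refine ⟨M.asIdeal, M.isMaximal, ?_⟩
  have h1 := compCenter_eq_placeBelow L q M
  rw [h1, hM]

end Count

/-! ## Galois equivariance: decomposition groups are stabilizers -/

section Galois

variable (G : Type) [Group G] (L : Type) [Field L] [NumberField L] [MulSemiringAction G L]
  (q : ℕ) [Fact q.Prime]

theorem coe_smul_integer (g : G) (a : 𝓞 L) : ((g • a : 𝓞 L) : L) = g • (a : L) := rfl

/-- Transport of centres along an element of `G`: if `m' = g⁻¹(m)`, then `g` maps the centre of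
`m'` onto the centre of `m`. -/
theorem smul_mem_compCenter_iff (g : G) (m m' : Ideal (SemiLocal L q)) [hm : m.IsMaximal]
    [hm' : m'.IsMaximal] (h : ∀ x : SemiLocal L q, x ∈ m' ↔ g • x ∈ m) (a : 𝓞 L) :
    g • a ∈ compCenter L q m ↔ a ∈ compCenter L q m' := by
  letI := Ideal.Quotient.field m
  letI := Ideal.Quotient.field m'
  letI := compAlgebra L q m
  letI := compAlgebra L q m'
  have hmap : m = m'.map
      ((MulSemiringAction.toRingEquiv G (SemiLocal L q) g : SemiLocal L q ≃+* SemiLocal L q) :
        SemiLocal L q →+* SemiLocal L q) := by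
    have hcomap : m' = m.comap
        ((MulSemiringAction.toRingEquiv G (SemiLocal L q) g : SemiLocal L q ≃+* SemiLocal L q) :
          SemiLocal L q →+* SemiLocal L q) := by
      ext x
      rw [Ideal.mem_comap]
      exact h x
    rw [hcomap]
    exact (Ideal.map_comap_of_surjective
      ((MulSemiringAction.toRingEquiv G (SemiLocal L q) g : SemiLocal L q ≃+* SemiLocal L q) :
        SemiLocal L q →+* SemiLocal L q)
      (MulSemiringAction.toRingEquiv G (SemiLocal L q) g).surjective m).symm
  let σ : (SemiLocal L q ⧸ m') ≃+* (SemiLocal L q ⧸ m) :=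
    Ideal.quotientEquiv m' m (MulSemiringAction.toRingEquiv G (SemiLocal L q) g) hmap
  have hσ : ∀ c : ℚ_[q], σ (algebraMap ℚ_[q] (SemiLocal L q ⧸ m') c) =
      algebraMap ℚ_[q] (SemiLocal L q ⧸ m) c := by
    intro c
    rw [compAlgebra_algebraMap, compAlgebra_algebraMap]
    show Ideal.Quotient.mk m (g • ((1 : L) ⊗ₜ[ℚ] c)) = _
    rw [smul_tmul_eq, smul_one]
  have hemb : compEmb L q m ((g • a : 𝓞 L) : L) = σ (compEmb L q m' (a : L)) := by
    rw [compEmb_apply, compEmb_apply, coe_smul_integer]
    show _ = Ideal.Quotient.mk m (g • ((a : L) ⊗ₜ[ℚ] (1 : ℚ_[q])))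
    rw [smul_tmul_eq]
  rw [mem_compCenter, mem_compCenter, hemb]
  exact mem_maxIdeal_ringEquiv q σ hσ _

/-- **The decomposition group of a place is the stabilizer of the prime below it.** -/
theorem decompGroup_eq_stabilizer (m : Ideal (SemiLocal L q)) [hm : m.IsMaximal] :
    decompGroup G L q m = MulAction.stabilizer G (compCenter L q m) := by
  ext g
  rw [MulAction.mem_stabilizer_iff, mem_decompGroup_iff]
  constructor
  · intro hg
    have key := smul_mem_compCenter_iff G L q g m m (fun x => (hg x).symm)
    ext a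
    rw [Ideal.mem_pointwise_smul_iff_inv_smul_mem, ← key, smul_inv_smul]
  · intro hg
    -- the translated place has the same centre
    let φ : SemiLocal L q →+* SemiLocal L q :=
      ((MulSemiringAction.toRingEquiv G (SemiLocal L q) g : SemiLocal L q ≃+* SemiLocal L q) :
        SemiLocal L q →+* SemiLocal L q)
    haveI hm' : (m.comap φ).IsMaximal :=
      Ideal.comap_isMaximal_of_surjective φ
        (MulSemiringAction.toRingEquiv G (SemiLocal L q) g).surjective
    have key := smul_mem_compCenter_iff G L q g m (m.comap φ) (fun x => Iff.rfl)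
    have hc : compCenter L q (m.comap φ) = compCenter L q m := by
      ext a
      rw [← key]
      conv_lhs => rw [← hg]
      rw [Ideal.smul_mem_pointwise_smul_iff]
    have heq : m.comap φ = m := compCenter_injective L q _ _ hc
    intro x
    conv_rhs => rw [← heq]
    rfl

theorem card_decompGroup (m : Ideal (SemiLocal L q)) [hm : m.IsMaximal] :
    Nat.card (decompGroup G L q m) = Nat.card (MulAction.stabilizer G (compCenter L q m)) := by
  rw [decompGroup_eq_stabilizer]

end Galois

/-! ## The valuation dictionary: helper84's divisor map is `ordZ` on the components -/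

section Ord

open Fermat.Agent.CFT.Global.QBridge (qInt maxOrder orderUnits lamq divq)

variable (L : Type) [Field L] [NumberField L] (q : ℕ) [Fact q.Prime]
  (m : Ideal (SemiLocal L q)) [hm : m.IsMaximal]

/-- The place of `L` (height-one prime of `𝓞 L`) below `m`. -/
noncomputable def compPlace : IsDedekindDomain.HeightOneSpectrum (𝓞 L) :=
  ⟨compCenter L q m, compCenter_isPrime L q m, compCenter_ne_bot L q m⟩

theorem compPlace_asIdeal : (compPlace L q m).asIdeal = compCenter L q m := rfl

/-- The place below `m`, as a prime above `q` in helper84's vocabulary. -/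
noncomputable def compPrimeOver : QBridge.PrimesOver q L :=
  ⟨compPlace L q m, natCast_mem_compCenter L q m⟩

/-- The projection to the local component, on units. -/
noncomputable def compUnits : (SemiLocal L q)ˣ →* (SemiLocal L q ⧸ m)ˣ :=
  Units.map ((Ideal.Quotient.mk m : SemiLocal L q →+* SemiLocal L q ⧸ m) :
    SemiLocal L q →* SemiLocal L q ⧸ m)

theorem coe_compUnits (x : (SemiLocal L q)ˣ) :
    ((compUnits L q m x : (SemiLocal L q ⧸ m)ˣ) : SemiLocal L q ⧸ m) =
      Ideal.Quotient.mk m (x : SemiLocal L q) := rfl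

/-- Elements of the maximal order map to integers of the local component. -/
theorem mk_mem_integers {a : L ⊗[ℚ] ℚ_[q]} (ha : a ∈ maxOrder q L) :
    letI := Ideal.Quotient.field m
    letI := compAlgebra L q m
    Ideal.Quotient.mk m a ∈ integers q (SemiLocal L q ⧸ m) := by
  letI := Ideal.Quotient.field m
  letI := compAlgebra L q m
  haveI := comp_finiteDimensional L q m
  rw [OrdCore.mem_integers_iff_spectralNorm]
  exact CountDict.sn_le_one_of_isIntegralElem (Ideal.Quotient.mk m) (fun _ => rfl)
    ((QBridge.mem_maxOrder_iff a).1 ha)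

/-- Units of the maximal order map to units of the local component. -/
theorem compUnits_mem_unitGroup {u : (L ⊗[ℚ] ℚ_[q])ˣ} (hu : u ∈ orderUnits q L) :
    letI := Ideal.Quotient.field m
    letI := compAlgebra L q m
    compUnits L q m u ∈ unitGroup q (SemiLocal L q ⧸ m) := by
  letI := Ideal.Quotient.field m
  letI := compAlgebra L q m
  exact ⟨mk_mem_integers L q m hu.1, mk_mem_integers L q m hu.2⟩

/-- **The valuation dictionary**: the component at the place below `m` of helper84's divisor
of `x ∈ (L ⊗ ℚ_q)ˣ` is the normalised valuation of the image of `x` in the local component. -/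
theorem divq_eq_ordZ (x : (L ⊗[ℚ] ℚ_[q])ˣ) :
    letI := Ideal.Quotient.field m
    letI := compAlgebra L q m
    Multiplicative.toAdd (divq q L x) (compPrimeOver L q m) =
      ordZ q (SemiLocal L q ⧸ m) (compUnits L q m x) := by
  letI := Ideal.Quotient.field m
  letI := compAlgebra L q m
  haveI := comp_finiteDimensional L q m
  obtain ⟨a, u, hu, hx⟩ := QBridge.exists_lamq_mul x
  rw [QBridge.divq_of_eq hu hx, hx, map_mul, OrdCore.ordZ_mul]
  have h1 : ordZ q (SemiLocal L q ⧸ m) (compUnits L q m u) = 0 :=
    (OrdCore.mem_unitGroup_iff_ordZ q _ _).1 (compUnits_mem_unitGroup L q m hu)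
  have h2 : compUnits L q m (lamq q L a) = unitsMap L (SemiLocal L q ⧸ m) (compEmb L q m) a :=
    Units.ext rfl
  rw [h1, add_zero, h2, ordZ_unitsMap q L (SemiLocal L q ⧸ m) (compEmb L q m)
    (compEmb_adjoin L q m) a]
  rfl

end Ord

end Fermat.Agent.CFT.Bridge.CompPlace
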