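import Fermat.Agent.CFT.Global.Defs
import Fermat.Agent.CFT.Bridge.ActClass

/-!
# CFT program, bridge Local → Global: `[C6] LocClassP`

The local component `L_w = (L ⊗[ℚ] ℚ_q) ⧸ m` of a number field `L` at a maximal ideal `m` is a
finite extension of `ℚ_q` on which the decomposition group `D_w = decompGroup G L q m` acts
faithfully by `ℚ_q`-algebra automorphisms.  Hence (`Bridge/ActClass.lean`, i.e. the local class
field theory of `Local/Provide.lean`) the `D_w`-module `L_wˣ = localCompRep G L q m` carries a
class `σw ∈ H²(D_w, L_wˣ)` whose restriction to every subgroup `H ≤ D_w` generates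
`H²(H, L_wˣ)`, a group of order `|H|`, and `H¹(H, L_wˣ) = 0`.

* `exists_locClass` : the statement for all subgroups;
* `locClassP` : the statement for `p`-subgroups (the text of the Global contract `[C6]`).
-/

set_option autoImplicit false
set_option linter.style.haveILetI false

namespace Fermat.Agent.CFT.Bridge.LocClassP

open CategoryTheory groupCohomology Fermat.Agent.CFT Fermat.Agent.CFT.Global
open scoped TensorProduct Fermat.Agent.CFT.Global

attribute [local instance] Algebra.TensorProduct.rightAlgebra Ideal.Quotient.field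

section Component

variable (G L : Type) [Group G] [Field L] [NumberField L] [MulSemiringAction G L]
  (q : ℕ) [Fact q.Prime] (m : Ideal (SemiLocal L q)) [m.IsMaximal]

omit [m.IsMaximal] in
/-- The local component is finite over `ℚ_q`. -/
theorem finite_comp : Module.Finite ℚ_[q] (SemiLocal L q ⧸ m) :=
  haveI : Module.Finite ℚ_[q] (SemiLocal L q) :=
    Module.Finite.equiv (Algebra.TensorProduct.commRight ℚ ℚ_[q] L).toLinearEquiv
  Module.Finite.of_surjective (Ideal.Quotient.mkₐ ℚ_[q] m).toLinearMap
    (Ideal.Quotient.mkₐ_surjective ℚ_[q] m)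

omit [m.IsMaximal] in
theorem algebraMap_comp (c : ℚ_[q]) :
    algebraMap ℚ_[q] (SemiLocal L q ⧸ m) c = Ideal.Quotient.mk m ((1 : L) ⊗ₜ[ℚ] c) := rfl

/-- The decomposition group acts `ℚ_q`-linearly on the local component. -/
theorem decomp_lin (d : decompGroup G L q m) (c : ℚ_[q]) :
    d • algebraMap ℚ_[q] (SemiLocal L q ⧸ m) c = algebraMap ℚ_[q] (SemiLocal L q ⧸ m) c := by
  rw [algebraMap_comp, decomp_smul_mk, smul_tmul_eq, smul_one]

/-- `L` embeds into its local component. -/
theorem comp_injective :
    Function.Injective (fun a : L => Ideal.Quotient.mk m (a ⊗ₜ[ℚ] (1 : ℚ_[q]))) :=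
  RingHom.injective ((Ideal.Quotient.mk m).comp
    (Algebra.TensorProduct.includeLeft (R := ℚ) (S := ℚ) (A := L) (B := ℚ_[q])).toRingHom)

/-- The decomposition group acts faithfully on the local component. -/
theorem faithful_comp [FaithfulSMul G L] :
    FaithfulSMul (decompGroup G L q m) (SemiLocal L q ⧸ m) := by
  refine ⟨fun {d₁ d₂} h => ?_⟩
  apply Subtype.ext
  apply FaithfulSMul.eq_of_smul_eq_smul (α := L)
  intro a
  apply comp_injective L q m
  have h1 := h (Ideal.Quotient.mk m (a ⊗ₜ[ℚ] (1 : ℚ_[q])))
  rw [decomp_smul_mk, decomp_smul_mk, smul_tmul_eq, smul_tmul_eq] at h1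
  exact h1

end Component

/-- **The local class of a local component, at every subgroup of the decomposition group.** -/
theorem exists_locClass (G L : Type) [Group G] [Finite G] [Field L] [NumberField L]
    [MulSemiringAction G L] [FaithfulSMul G L] (q : ℕ) [Fact q.Prime]
    (m : Ideal (SemiLocal L q)) [m.IsMaximal] :
    ∃ σw : groupCohomology (localCompRep G L q m) 2,
      ∀ H : Subgroup (decompGroup G L q m),
        Limits.IsZero (groupCohomology (Rep.res H.subtype (localCompRep G L q m)) 1) ∧
        Nat.card (groupCohomology (Rep.res H.subtype (localCompRep G L q m)) 2) = Nat.card H ∧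
        ∀ y : groupCohomology (Rep.res H.subtype (localCompRep G L q m)) 2,
          ∃ k : ℤ, y = k • (Coh.rest (localCompRep G L q m) H 2).hom σw := by
  haveI := finite_comp L q m
  haveI := faithful_comp G L q m
  exact ActClass.exists_class q (decompGroup G L q m) (SemiLocal L q ⧸ m) (fun _ _ => rfl)
    (decomp_lin G L q m)

/-- **[C6] `LocClassP`** (text of the Global contract, verbatim). -/
theorem locClassP : ∀ (p : ℕ) [Fact p.Prime], ∀ (G L : Type) [Group G] [Fintype G] [Field L]
    [NumberField L] [MulSemiringAction G L] [FaithfulSMul G L] (q : ℕ) [Fact q.Prime]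
    (m : Ideal (SemiLocal L q)), m.IsMaximal →
    ∃ σw : groupCohomology (localCompRep G L q m) 2,
      ∀ H : Subgroup (decompGroup G L q m), IsPGroup p H →
        Limits.IsZero (groupCohomology (Rep.res H.subtype (localCompRep G L q m)) 1) ∧
        Nat.card (groupCohomology (Rep.res H.subtype (localCompRep G L q m)) 2) = Nat.card H ∧
        ∀ y : groupCohomology (Rep.res H.subtype (localCompRep G L q m)) 2,
          ∃ k : ℤ, y = k • (Coh.rest (localCompRep G L q m) H 2).hom σw := by
  intro p _ G L _ _ _ _ _ _ q _ m hm
  haveI := hm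
  obtain ⟨σw, h⟩ := exists_locClass G L q m
  exact ⟨σw, fun H _ => h H⟩

end Fermat.Agent.CFT.Bridge.LocClassP
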