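import Fermat.Agent.CFT.Bridge.LocClassP

/-!
# CFT program, bridge Local → Global: the local class generates `H²` of the decomposition group

Complement to `Bridge/ActClass.lean` / `Bridge/LocClassP.lean`: the same class `σ` also satisfies
the class-module axioms at the *whole* group, stated without restriction to the subgroup `⊤`:
`H¹(D, Eˣ) = 0`, `H²(D, Eˣ)` is cyclic of order `|D|`, generated by `σ`.

* `exists_class_top` : the abstract form (a finite group acting faithfully and `ℚ_q`-linearly on a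
  finite extension `E` of `ℚ_q`);
* `exists_locClass_top` : the same for `localCompRep G L q m`;
* `locH2_cyclic` : `H²(D_w, L_wˣ)` is cyclic (every class is an integer multiple of one class).
-/

set_option autoImplicit false
set_option linter.style.haveILetI false

namespace Fermat.Agent.CFT.Bridge.LocClassTop

open CategoryTheory groupCohomology Fermat.Agent.CFT Fermat.Agent.CFT.Local
  Fermat.Agent.CFT.Bridge.ActClass

section Abstract

variable (q : ℕ) [Fact q.Prime] (D E : Type) [Group D] [Finite D] [Field E]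
  [Algebra ℚ_[q] E] [FiniteDimensional ℚ_[q] E] [MulSemiringAction D E] [FaithfulSMul D E]
  [MulDistribMulAction D Eˣ]

/-- **The local class module of a faithful action on a finite extension of `ℚ_q`**: one class
`σ ∈ H²(D, Eˣ)` which generates `H²(D, Eˣ)` (cyclic of order `|D|`) and whose restrictions
generate `H²(H, Eˣ)` (of order `|H|`) for every subgroup `H`; all `H¹` vanish. -/
theorem exists_class_top
    (hact : ∀ (d : D) (u : Eˣ), ((d • u : Eˣ) : E) = d • (u : E))
    (hlin : ∀ (d : D) (c : ℚ_[q]), d • algebraMap ℚ_[q] E c = algebraMap ℚ_[q] E c) :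
    ∃ σ : groupCohomology (Rep.ofMulDistribMulAction D Eˣ) 2,
      (Limits.IsZero (groupCohomology (Rep.ofMulDistribMulAction D Eˣ) 1) ∧
        Nat.card (groupCohomology (Rep.ofMulDistribMulAction D Eˣ) 2) = Nat.card D ∧
        ∀ y : groupCohomology (Rep.ofMulDistribMulAction D Eˣ) 2, ∃ k : ℤ, y = k • σ) ∧
      ∀ H : Subgroup D,
        Limits.IsZero (groupCohomology (Rep.res H.subtype (Rep.ofMulDistribMulAction D Eˣ)) 1) ∧
        Nat.card (groupCohomology (Rep.res H.subtype (Rep.ofMulDistribMulAction D Eˣ)) 2) =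
          Nat.card H ∧
        ∀ y : groupCohomology (Rep.res H.subtype (Rep.ofMulDistribMulAction D Eˣ)) 2,
          ∃ k : ℤ, y = k • (Coh.rest (Rep.ofMulDistribMulAction D Eˣ) H 2).hom σ := by
  classical
  letI : Algebra ℚ_[q] (Fix D E) := fixAlgebra q D E hlin
  haveI : IsScalarTower ℚ_[q] (Fix D E) E := fixTower q D E hlin
  haveI : FiniteDimensional ℚ_[q] (Fix D E) := FiniteDimensional.left ℚ_[q] (Fix D E) E
  set A : Rep.{0} ℤ D := Rep.ofMulDistribMulAction D Eˣ with hA
  let B : Rep.{0} ℤ (E ≃ₐ[Fix D E] E) := unitsRep (Fix D E) E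
  let e : D ≃* (E ≃ₐ[Fix D E] E) := FixedPoints.toAlgAutMulEquiv D E
  have he : ∀ (d : D) (x : E), e d x = d • x := fun d x => rfl
  have hρ : ∀ (d : D) (x : Additive Eˣ), A.ρ d x = B.ρ (e d) x := by
    intro d x
    apply Additive.toMul.injective
    apply Units.ext
    show ((d • Additive.toMul x : Eˣ) : E) = e d (Additive.toMul x : Eˣ)
    rw [hact, he]
  obtain ⟨-, -, -, -, -, ⟨u, hu⟩, -⟩ := Provide.invBasic q (Fix D E) E
  induction u using H2_induction_on with
  | h σ₀ =>
  have hcl : ∀ (H : Type) [Group H] (f : H →* (E ≃ₐ[Fix D E] E)), Function.Injective f →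
      Triv.IsClassAt B σ₀ f := fun H _ f hf =>
    ClassAt.isClassAt Provide.invBasic Provide.invRes q (Fix D E) E σ₀ hu H f hf
  -- the fundamental cocycle on `D`
  have hρA : (A.ρ : Representation ℤ D (Additive Eˣ)) = (Rep.res e.toMonoidHom B).ρ := by
    ext d x
    exact congrArg Additive.toMul (hρ d x)
  have hs' : (fun p : D × D => (σ₀ (e p.1, e p.2) : Additive Eˣ)) ∈
      cocycles₂ (Rep.of ((Rep.res e.toMonoidHom B).ρ : Representation ℤ D (Additive Eˣ))) :=
    (mapCocycles₂ e.toMonoidHom (𝟙 (Rep.res e.toMonoidHom B)) σ₀).2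
  have hs : (fun p : D × D => (σ₀ (e p.1, e p.2) : Additive Eˣ)) ∈ cocycles₂ A := by
    rw [← hρA] at hs'
    exact hs'
  refine ⟨(H2π A).hom ⟨_, hs⟩, ?_, fun H => ?_⟩
  · -- the whole group
    obtain ⟨h1, hgen, hord⟩ := hcl D e.toMonoidHom e.injective
    have key : ∀ ρ' : Representation ℤ D (Additive Eˣ), ρ' = (Rep.res e.toMonoidHom B).ρ →
        ∀ hs₁ : (fun p : D × D => (σ₀ (e p.1, e p.2) : Additive Eˣ)) ∈ cocycles₂ (Rep.of ρ'),
        Limits.IsZero (groupCohomology (Rep.of ρ') 1) ∧
          Nat.card (groupCohomology (Rep.of ρ') 2) = Nat.card D ∧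
          ∀ y : groupCohomology (Rep.of ρ') 2,
            ∃ k : ℤ, y = k • (H2π (Rep.of ρ')).hom ⟨_, hs₁⟩ := by
      intro ρ' hρ' hs₁
      subst hρ'
      exact coh_of_cocycle _ _ hs₁ h1 hgen hord
    exact key _ hρA hs
  · -- subgroups
    let f : H →* (E ≃ₐ[Fix D E] E) := e.toMonoidHom.comp H.subtype
    have hf : Function.Injective f := e.injective.comp Subtype.val_injective
    obtain ⟨h1, hgen, hord⟩ := hcl H f hf
    have hρR : ((Rep.res H.subtype A).ρ : Representation ℤ H (Additive Eˣ)) =
        (Rep.res f B).ρ := by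
      ext h x
      exact congrArg Additive.toMul (hρ (h : D) x)
    have ht' : (fun p : H × H => (σ₀ (f p.1, f p.2) : Additive Eˣ)) ∈
        cocycles₂ (Rep.of ((Rep.res f B).ρ : Representation ℤ H (Additive Eˣ))) :=
      (mapCocycles₂ f (𝟙 (Rep.res f B)) σ₀).2
    have ht : (fun p : H × H => (σ₀ (f p.1, f p.2) : Additive Eˣ)) ∈
        cocycles₂ (Rep.res H.subtype A) := by
      rw [← hρR] at ht'
      exact ht'
    have key : ∀ ρ' : Representation ℤ H (Additive Eˣ), ρ' = (Rep.res f B).ρ →
        ∀ hs₁ : (fun p : H × H => (σ₀ (f p.1, f p.2) : Additive Eˣ)) ∈ cocycles₂ (Rep.of ρ'),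
        Limits.IsZero (groupCohomology (Rep.of ρ') 1) ∧
          Nat.card (groupCohomology (Rep.of ρ') 2) = Nat.card H ∧
          ∀ y : groupCohomology (Rep.of ρ') 2,
            ∃ k : ℤ, y = k • (H2π (Rep.of ρ')).hom ⟨_, hs₁⟩ := by
      intro ρ' hρ' hs₁
      subst hρ'
      exact coh_of_cocycle _ _ hs₁ h1 hgen hord
    obtain ⟨k1, k2, k3⟩ := key _ hρR ht
    refine ⟨k1, k2, fun y => ?_⟩
    obtain ⟨k, hk⟩ := k3 y
    refine ⟨k, ?_⟩
    have hrest : (Coh.rest A H 2).hom ((H2π A).hom ⟨_, hs⟩) =
        (H2π (Rep.res H.subtype A)).hom ⟨_, ht⟩ := by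
      show (groupCohomology.map H.subtype (𝟙 (Rep.res H.subtype A)) 2).hom
        ((H2π A).hom ⟨_, hs⟩) = _
      rw [H2π_comp_map_apply]
      rfl
    rw [hrest]
    exact hk

end Abstract

section Global

open Fermat.Agent.CFT.Global Fermat.Agent.CFT.Bridge.LocClassP
open scoped TensorProduct Fermat.Agent.CFT.Global

attribute [local instance] Algebra.TensorProduct.rightAlgebra Ideal.Quotient.field

variable (G L : Type) [Group G] [Finite G] [Field L] [NumberField L]
  [MulSemiringAction G L] [FaithfulSMul G L] (q : ℕ) [Fact q.Prime]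
  (m : Ideal (SemiLocal L q)) [m.IsMaximal]

/-- **The local class of a local component**: `σw` generates `H²(D_w, L_wˣ)`, which is cyclic of
order `|D_w|`, `H¹(D_w, L_wˣ) = 0`, and the same holds for the restrictions to all subgroups. -/
theorem exists_locClass_top :
    ∃ σw : groupCohomology (localCompRep G L q m) 2,
      (Limits.IsZero (groupCohomology (localCompRep G L q m) 1) ∧
        Nat.card (groupCohomology (localCompRep G L q m) 2) =
          Nat.card (decompGroup G L q m) ∧
        ∀ y : groupCohomology (localCompRep G L q m) 2, ∃ k : ℤ, y = k • σw) ∧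
      ∀ H : Subgroup (decompGroup G L q m),
        Limits.IsZero (groupCohomology (Rep.res H.subtype (localCompRep G L q m)) 1) ∧
        Nat.card (groupCohomology (Rep.res H.subtype (localCompRep G L q m)) 2) = Nat.card H ∧
        ∀ y : groupCohomology (Rep.res H.subtype (localCompRep G L q m)) 2,
          ∃ k : ℤ, y = k • (Coh.rest (localCompRep G L q m) H 2).hom σw := by
  haveI := finite_comp L q m
  haveI := faithful_comp G L q m
  exact exists_class_top q (decompGroup G L q m) (SemiLocal L q ⧸ m) (fun _ _ => rfl)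
    (decomp_lin G L q m)

/-- `H²(D_w, L_wˣ)` is cyclic. -/
theorem locH2_cyclic :
    ∃ σw : groupCohomology (localCompRep G L q m) 2,
      ∀ y : groupCohomology (localCompRep G L q m) 2, ∃ k : ℤ, y = k • σw := by
  obtain ⟨σw, ⟨-, -, h⟩, -⟩ := exists_locClass_top G L q m
  exact ⟨σw, h⟩

/-- `|H²(D_w, L_wˣ)| = |D_w|`. -/
theorem locH2_card :
    Nat.card (groupCohomology (localCompRep G L q m) 2) = Nat.card (decompGroup G L q m) := by
  obtain ⟨σw, ⟨-, h, -⟩, -⟩ := exists_locClass_top G L q m
  exact h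

/-- `H¹(D_w, L_wˣ) = 0`. -/
theorem locH1_isZero : Limits.IsZero (groupCohomology (localCompRep G L q m) 1) := by
  obtain ⟨σw, ⟨h, -, -⟩, -⟩ := exists_locClass_top G L q m
  exact h

end Global

end Fermat.Agent.CFT.Bridge.LocClassTop
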