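import Mathlib
import Fermat.Agent.CFT.Bridge.LocComp
import Fermat.Agent.CFT.Global.SemiLocalGalois
import Fermat.Agent.CFT.Local.Provide
import Fermat.Agent.CFT.Coh.CyclicPlan
import Fermat.Agent.CFT.Global.Plan

/-!
# CFT program, bridge Local → Global: block C of the Global plan, unconditionally (helper46)

* `locH1 : Global.Plan.LocH1`         — `[C1]` (Hilbert 90 for the local components);
* `locH2Card : Global.Plan.LocH2Card` — `[C2]` (`|H²(D_w, L_wˣ)| = |D_w|`);
* `locHerbrand_of : Plan.OrbitShapiro → Plan.LocH1 → Plan.LocH2Card → Plan.LocHerbrand` and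
  `locHerbrand : Global.Plan.LocHerbrand` — `[C5]` (the Herbrand quotient of a block
  `∏_{w' ∈ G·w} L_{w'}ˣ` is the local degree `|D_w|`, `G` cyclic).

Inputs: `Bridge/LocComp` (the dictionary), `Global/SemiLocalGalois` (helper75: `[B3]`, `[B4]`),
`Local/Provide` (helper73: the local `H2Card`), `Coh/CyclicPlan` (`|H²| = h0`, `|H¹| = hm1`
for finite cyclic groups).
-/

set_option autoImplicit false

namespace Fermat.Agent.CFT.Bridge.LocCompMain

open CategoryTheory groupCohomology
open scoped Fermat.Agent.CFT.Global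
open Fermat.Agent.CFT Fermat.Agent.CFT.Global Fermat.Agent.CFT.Herbrand

/-- **[C1]** Hilbert 90 for the local components: `H¹(D_w, L_wˣ) = 0`. -/
theorem locH1 : Global.Plan.LocH1 :=
  LocComp.locH1 SemiLocalGalois.locFaithful

/-- **[C2]** Local class field theory: `|H²(D_w, L_wˣ)| = |D_w|`. -/
theorem locH2Card : Global.Plan.LocH2Card :=
  LocComp.locH2Card Local.Provide.h2Card SemiLocalGalois.locFaithful

/-- **[C5]** from `[B3]` (Shapiro for a block), `[C1]` and `[C2]`: for cyclic `G` the Herbrand
quotient of a block is the local degree. -/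
theorem locHerbrand_of (hB3 : Global.Plan.OrbitShapiro) (hC1 : Global.Plan.LocH1)
    (hC2 : Global.Plan.LocH2Card) : Global.Plan.LocHerbrand := by
  intro G L _ _ _ _ _ _ _ q _ m hm
  obtain ⟨g, hg⟩ := IsCyclic.exists_generator (α := G)
  have hg' : ∀ x : G, x ∈ Subgroup.zpowers g := hg
  -- cardinalities of `H¹`, `H²` of the block through Shapiro
  have e2 := Equiv.ofBijective _ (hB3 G L q m hm 2)
  have e1 := Equiv.ofBijective _ (hB3 G L q m hm 1)
  have c2 : Nat.card (H2 (orbitRep G L q m)) = Nat.card (decompGroup G L q m) := by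
    rw [← hC2 G L q m hm]
    exact Nat.card_congr e2
  have c1 : Nat.card (H1 (orbitRep G L q m)) = 1 := by
    have hz := hC1 G L q m hm
    have hsub : Subsingleton (groupCohomology (localCompRep G L q m) 1) :=
      ModuleCat.subsingleton_of_isZero hz
    have : Nat.card (H1 (orbitRep G L q m)) =
        Nat.card (groupCohomology (localCompRep G L q m) 1) := Nat.card_congr e1
    rw [this]
    exact Nat.card_unique
  have h0eq : h0 (ofRepresentation (orbitRep G L q m).ρ) = Nat.card (decompGroup G L q m) := by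
    rw [← c2]
    exact (Cyclic.card_H2_eq_h0 (orbitRep G L q m) hg').symm
  have hm1eq : hm1 (ofRepresentation (orbitRep G L q m).ρ) = 1 := by
    rw [← c1]
    exact (Cyclic.card_H1_eq_hm1 (orbitRep G L q m) hg').symm
  have hpos : Nat.card (decompGroup G L q m) ≠ 0 := Nat.card_pos.ne'
  refine ⟨⟨by rw [h0eq]; exact hpos, by rw [hm1eq]; exact one_ne_zero⟩, ?_⟩
  rw [herbrand, h0eq, hm1eq]
  simp

/-- **[C5]**, unconditionally. -/
theorem locHerbrand : Global.Plan.LocHerbrand :=
  locHerbrand_of SemiLocalGalois.orbitShapiro locH1 locH2Card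

end Fermat.Agent.CFT.Bridge.LocCompMain
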