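import Mathlib
import Fermat.Agent.CFT.Global.Plan
import Fermat.Agent.CFT.Global.SemiLocalGalois
import Fermat.Agent.CFT.Bridge.LocComp
import Fermat.Agent.CFT.Bridge.CompDict
import Fermat.Agent.CFT.Local.UnitsCoh
import Fermat.Agent.CFT.Coh.Shapiro

/-!
# CFT program, bridge Local → Global: cohomology of the local units `U_q(L)` ([C3])

`locUnitsAcyclic : Global.Plan.LocUnitsAcyclic` (unconditional): for a finite group `G` acting
faithfully on a number field `L` and a prime `q` unramified in `L`,
`Hⁿ(G, U_q(L)) = 0` for all `n ≥ 1` and every `G`-invariant local unit is the norm of a local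
unit (`Ĥ⁰(G, U_q(L)) = 0`).

Route.
* `DForm`: the Local core (`Local/UnitsCoh.lean`) for a finite group `D` acting faithfully by
  `ℚ_[q]`-automorphisms on a finite extension `E` of `ℚ_[q]` which is unramified over `ℚ_[q]`
  (`exists_norm_of_fixed`, `exists_generator`), through `FixedPoints.toAlgAutMulEquiv`.
* `Comp`: the integral units `compUnits L q m` of a local component `(L ⊗ ℚ_[q]) ⧸ m`, the
  `decompGroup`-module `compUnitsRep G L q m` and the projection `unitsProj`; integrality in
  `L ⊗ ℚ_[q]` is componentwise (`isInt_of_forall_comp`); orbit representatives `rep` of the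
  maximal ideals; `unit_ext`, `exists_unit_family`, `mem_localUnits_of_forall` (the unit group
  `U_q(L)` is the product of the modules coinduced from the `compUnitsRep`), in the form
  `units_inj`, `units_surj` required by `Coh.Semilocal.map_family_bijective'`.
* `Core`: at an unramified prime the components are unramified (`CompDict`), so
  `isZero_compUnitsRep`.
* `Main`: `isZero_localUnitsRep` (semilocal Shapiro), `exists_norm_localUnits`,
  `h0_localUnitsRep`.
-/

set_option autoImplicit false

noncomputable section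

namespace Fermat.Agent.CFT.Bridge.LocUnits

open CategoryTheory TensorProduct
open scoped Fermat.Agent.CFT.Global
open Fermat.Agent.CFT Fermat.Agent.CFT.Global Fermat.Agent.CFT.Herbrand
open Fermat.Agent.CFT.Local.UnitsCoh

/-! ## Generic lemmas -/

/-- An element fixed by a generator is fixed by the whole group. -/
theorem smul_eq_of_forall_mem_zpowers {G M : Type*} [Group G] [MulAction G M] {g : G}
    (hg : ∀ x, x ∈ Subgroup.zpowers g) {u : M} (h : g • u = u) (x : G) : x • u = u := by
  have h1 : Subgroup.zpowers g ≤ MulAction.stabilizer G u :=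
    (Subgroup.zpowers_le).2 (MulAction.mem_stabilizer_iff.2 h)
  exact MulAction.mem_stabilizer_iff.1 (h1 (hg x))

/-- A product over a group of a function supported on a subgroup. -/
theorem prod_dite_mem {G M : Type*} [Group G] [Fintype G] [CommMonoid M] (D : Subgroup G)
    [Fintype D] [DecidablePred (· ∈ D)] (a : D → M) :
    ∏ g : G, (if h : g ∈ D then a ⟨g, h⟩ else 1) = ∏ d : D, a d := by
  have h1 : ∏ d : D, a d = ∏ d : D, (fun g : G => if h : g ∈ D then a ⟨g, h⟩ else 1) d :=
    Finset.prod_congr rfl (fun d _ => by simp)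
  rw [h1, ← Finset.prod_subtype (Finset.univ.filter (· ∈ D)) (by simp)
    (fun g => if h : g ∈ D then a ⟨g, h⟩ else 1), Finset.prod_filter]
  refine Finset.prod_congr rfl (fun g _ => ?_)
  by_cases h : g ∈ D <;> simp [h]

/-! ## A finite group acting on a finite extension of `ℚ_[q]` -/

section DForm

variable (q : ℕ) [Fact q.Prime] (D : Type) [Group D] [Fintype D] (E : Type) [Field E]
  [Algebra ℚ_[q] E] [FiniteDimensional ℚ_[q] E] [MulSemiringAction D E] [FaithfulSMul D E]
  (hc : ∀ (d : D) (c : ℚ_[q]), d • algebraMap ℚ_[q] E c = algebraMap ℚ_[q] E c)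

include hc

omit [FiniteDimensional ℚ_[q] E] in
/-- The unit group of the integers is stable under a group acting by `ℚ_[q]`-algebra
automorphisms. -/
theorem smul_mem_unitGroup (d : D) (u : Eˣ) (hu : u ∈ Local.unitGroup q E) :
    d • u ∈ Local.unitGroup q E := by
  let _ := LocComp.fixAlgebra q D E hc
  have := LocComp.fix_isScalarTower q D E hc
  exact Local.UnitsCoh.smul_mem_unitGroup q (FixedPoints.subfield D E) E
    (FixedPoints.toAlgAutMulEquiv D E d) u hu

/-- `D`-form of CORE A: if `E/ℚ_q` is unramified, every `D`-invariant unit is a norm of a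
unit. -/
theorem exists_norm_of_fixed (hun : Local.IsUnram q ℚ_[q] E) (u : Eˣ)
    (hu : u ∈ Local.unitGroup q E) (hfix : ∀ d : D, d • u = u) :
    ∃ w ∈ Local.unitGroup q E, ∏ d : D, d • w = u := by
  let _ := LocComp.fixAlgebra q D E hc
  have := LocComp.fix_isScalarTower q D E hc
  have := LocComp.fix_finiteDimensional q D E hc
  have hunF : Local.IsUnram q (FixedPoints.subfield D E) E :=
    CompDict.isUnram_of_isUnram_base q E _ hun
  obtain ⟨w, hw, hwu⟩ := Local.UnitsCoh.exists_norm_of_fixed q (FixedPoints.subfield D E) E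
    hunF u hu (fun σ => by
      obtain ⟨d, rfl⟩ := (FixedPoints.toAlgAutMulEquiv D E).surjective σ
      exact hfix d)
  refine ⟨w, hw, ?_⟩
  rw [← hwu]
  exact Fintype.prod_equiv (FixedPoints.toAlgAutMulEquiv D E).toEquiv _ _ (fun d => rfl)

/-- `D`-form of CORE A: if `E/ℚ_q` is unramified, `D` is cyclic, generated by an element `g`
such that every unit of norm `1` is of the form `g w / w`. -/
theorem exists_generator (hun : Local.IsUnram q ℚ_[q] E) :
    ∃ g : D, (∀ x, x ∈ Subgroup.zpowers g) ∧
      ∀ u : Eˣ, ∏ d : D, d • u = 1 → ∃ w ∈ Local.unitGroup q E, g • w / w = u := by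
  let _ := LocComp.fixAlgebra q D E hc
  have := LocComp.fix_isScalarTower q D E hc
  have := LocComp.fix_finiteDimensional q D E hc
  have hunF : Local.IsUnram q (FixedPoints.subfield D E) E :=
    CompDict.isUnram_of_isUnram_base q E _ hun
  have hF := Local.UnramQ.ordAt_of_plan Local.Ord.ordStmt q (FixedPoints.subfield D E)
  have hE := Local.UnramQ.ordAt_of_plan Local.Ord.ordStmt q E
  obtain ⟨-, φ, hφ, hcyc, -⟩ := Local.UnramQ.unramStruct_at hF hE hunF
  set e := FixedPoints.toAlgAutMulEquiv D E with he
  refine ⟨e.symm φ, fun x => ?_, fun u hN => ?_⟩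
  · obtain ⟨k, hk⟩ := Subgroup.mem_zpowers_iff.1 (hcyc (e x))
    refine Subgroup.mem_zpowers_iff.2 ⟨k, ?_⟩
    apply e.injective
    rw [map_zpow, e.apply_symm_apply, hk]
  · obtain ⟨w, hw, hwu⟩ := Local.UnitsCoh.exists_div_of_norm_eq_one q (FixedPoints.subfield D E)
      E hunF φ hφ u (by
        rw [← hN]
        exact (Fintype.prod_equiv e.toEquiv _ _ (fun d => rfl)).symm)
    refine ⟨w, hw, ?_⟩
    rw [← hwu]
    congr 1
    apply Units.ext
    show (e.symm φ) • (w : E) = φ (w : E)
    conv_rhs => rw [← e.apply_symm_apply φ]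
    rfl

end DForm

/-! ## Integrality in the local components -/

/-- Integrality is preserved by ring homomorphisms compatible with the structure maps. -/
theorem isIntegralElem_map {R A B : Type*} [CommRing R] [CommRing A] [CommRing B]
    {f : R →+* A} {f' : R →+* B} (ψ : A →+* B) (hψ : ψ.comp f = f') {x : A}
    (hx : f.IsIntegralElem x) : f'.IsIntegralElem (ψ x) := by
  obtain ⟨P, hP, hx⟩ := hx
  refine ⟨P, hP, ?_⟩
  have h := congrArg ψ hx
  rwa [Polynomial.hom_eval₂, hψ, map_zero] at h

section Comp

variable (G : Type) [Group G] (L : Type) [Field L] [NumberField L] [MulSemiringAction G L]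
variable (q : ℕ) [Fact q.Prime]

/-- The structure map `ℤ_[q] → (L ⊗[ℚ] ℚ_[q]) ⧸ m` of a local component. -/
def compInt (m : Ideal (SemiLocal L q)) : ℤ_[q] →+* SemiLocal L q ⧸ m :=
  (Ideal.Quotient.mk m).comp (intHom L q)

/-- The integral units of the local component `(L ⊗[ℚ] ℚ_[q]) ⧸ m`: units which are integral
over `ℤ_[q]` together with their inverse (`𝒪_wˣ` for a maximal ideal `m`). -/
def compUnits (m : Ideal (SemiLocal L q)) : Subgroup (SemiLocal L q ⧸ m)ˣ where
  carrier := {y | (compInt L q m).IsIntegralElem (y : SemiLocal L q ⧸ m) ∧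
    (compInt L q m).IsIntegralElem ((y⁻¹ : (SemiLocal L q ⧸ m)ˣ) : SemiLocal L q ⧸ m)}
  one_mem' := by
    have h := (compInt L q m).isIntegralElem_map (x := (1 : ℤ_[q]))
    rw [map_one] at h
    exact ⟨h, by simpa using h⟩
  mul_mem' := by
    rintro x y ⟨hx, hx'⟩ ⟨hy, hy'⟩
    refine ⟨by simpa using RingHom.IsIntegralElem.mul _ hx hy, ?_⟩
    rw [mul_inv_rev]
    simpa using RingHom.IsIntegralElem.mul _ hy' hx'
  inv_mem' := by
    rintro x ⟨hx, hx'⟩
    exact ⟨hx', by simpa using hx⟩

/-- For a maximal ideal the integral units of the component are the unit group of the Local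
layer. -/
theorem compUnits_eq (m : Ideal (SemiLocal L q)) [hm : m.IsMaximal] :
    letI := Ideal.Quotient.field m
    letI := LocComp.compAlgebra L q m
    compUnits L q m = Local.unitGroup q (SemiLocal L q ⧸ m) := by
  let _ := Ideal.Quotient.field m
  let _ := LocComp.compAlgebra L q m
  apply Subgroup.ext
  intro y
  exact Iff.rfl

/-- The projection to a component maps local units to integral units. -/
theorem map_mk_mem_compUnits (m : Ideal (SemiLocal L q)) {x : (SemiLocal L q)ˣ}
    (hx : x ∈ localUnits L q) :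
    Units.map (Ideal.Quotient.mk m).toMonoidHom x ∈ compUnits L q m := by
  refine ⟨isIntegralElem_map (Ideal.Quotient.mk m) rfl hx.1, ?_⟩
  rw [← map_inv]
  exact isIntegralElem_map (Ideal.Quotient.mk m) rfl hx.2

/-- Shortcut instance: the decomposition group acts on the units of the local component. -/
local instance instUnitsActionComp (m : Ideal (SemiLocal L q)) :
    MulDistribMulAction (decompGroup G L q m) (SemiLocal L q ⧸ m)ˣ :=
  unitsMulDistribMulAction (decompGroup G L q m) (SemiLocal L q ⧸ m)

/-- Shortcut instance: the action underlying `instUnitsActionComp`. -/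
local instance instUnitsMulActionComp (m : Ideal (SemiLocal L q)) :
    MulAction (decompGroup G L q m) (SemiLocal L q ⧸ m)ˣ :=
  (instUnitsActionComp G L q m).toMulAction

/-- Shortcut instance: the scalar multiplication of `instUnitsActionComp`. -/
local instance instUnitsSMulComp (m : Ideal (SemiLocal L q)) :
    SMul (decompGroup G L q m) (SemiLocal L q ⧸ m)ˣ :=
  (instUnitsMulActionComp G L q m).toSMul

/-- The integral units of a component are stable under the decomposition group. -/
theorem smul_mem_compUnits (m : Ideal (SemiLocal L q)) (d : decompGroup G L q m)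
    (y : (SemiLocal L q ⧸ m)ˣ) (hy : y ∈ compUnits L q m) : d • y ∈ compUnits L q m := by
  have hcomp : (decompQuotHom G L q m d).comp (compInt L q m) = compInt L q m := by
    ext z
    show decompQuotHom G L q m d (Ideal.Quotient.mk m ((1 : L) ⊗ₜ[ℚ] (z : ℚ_[q]))) =
      Ideal.Quotient.mk m ((1 : L) ⊗ₜ[ℚ] (z : ℚ_[q]))
    rw [decompQuotHom_mk, smul_tmul_eq, smul_one]
  refine ⟨isIntegralElem_map _ hcomp hy.1, ?_⟩
  have h := isIntegralElem_map _ hcomp hy.2
  have e : (((d • y)⁻¹ : (SemiLocal L q ⧸ m)ˣ) : SemiLocal L q ⧸ m) =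
      decompQuotHom G L q m d ((y⁻¹ : (SemiLocal L q ⧸ m)ˣ) : SemiLocal L q ⧸ m) := by
    rw [← smul_inv']
    rfl
  rw [e]
  exact h

/-- The integral units `𝒪_wˣ` of a local component as a module over the decomposition group. -/
abbrev compUnitsRep (m : Ideal (SemiLocal L q)) : Rep ℤ (decompGroup G L q m) :=
  subRep (decompGroup G L q m) (compUnits L q m)
    (fun d y hy => smul_mem_compUnits G L q m d y hy)

/-- The projection `U_q(L) → 𝒪_wˣ` as a linear map. -/
def unitsProjLin (m : Ideal (SemiLocal L q)) :
    ↥(addSub (M := (SemiLocal L q)ˣ) (localUnits L q)) →ₗ[ℤ]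
      ↥(addSub (M := (SemiLocal L q ⧸ m)ˣ) (compUnits L q m)) :=
  LinearMap.restrict (localProj G L q m).hom.toLinearMap
    (fun x hx => map_mk_mem_compUnits L q m (x := Additive.toMul x) hx)

/-- The projection `U_q(L) → 𝒪_wˣ`, equivariant for the decomposition group. -/
def unitsProj (m : Ideal (SemiLocal L q)) :
    Rep.res (decompGroup G L q m).subtype (localUnitsRep G L q) ⟶ compUnitsRep G L q m :=
  Rep.ofHom ⟨unitsProjLin G L q m, fun d => by
      apply LinearMap.ext
      intro x
      rfl⟩

theorem coe_unitsProj (m : Ideal (SemiLocal L q)) (x : (localUnitsRep G L q).V) :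
    (Additive.toMul ((unitsProj G L q m).hom x).1 : (SemiLocal L q ⧸ m)ˣ) =
      Units.map (Ideal.Quotient.mk m).toMonoidHom (Additive.toMul x.1) := rfl

/-! ### Integrality is componentwise -/

/-- `ℤ_[q]`-integrality of a component transported along a translate of the maximal ideal. -/
theorem isIntegralElem_of_translate {m' m : Ideal (SemiLocal L q)} (g : G)
    (hg : ∀ a : SemiLocal L q, a ∈ m' ↔ g • a ∈ m) {x : SemiLocal L q}
    (hx : (compInt L q m).IsIntegralElem (Ideal.Quotient.mk m (g • x))) :
    (compInt L q m').IsIntegralElem (Ideal.Quotient.mk m' x) := by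
  obtain ⟨P, hP, hPx⟩ := hx
  refine ⟨P, hP, ?_⟩
  have e1 : ∀ (m₀ : Ideal (SemiLocal L q)) (y : SemiLocal L q),
      Polynomial.eval₂ (compInt L q m₀) (Ideal.Quotient.mk m₀ y) P =
        Ideal.Quotient.mk m₀ (Polynomial.eval₂ (intHom L q) y P) :=
    fun m₀ y => (Polynomial.hom_eval₂ P (intHom L q) (Ideal.Quotient.mk m₀) y).symm
  rw [e1, Ideal.Quotient.eq_zero_iff_mem] at hPx ⊢
  have e2 : Polynomial.eval₂ (intHom L q) (g • x) P =
      g • Polynomial.eval₂ (intHom L q) x P := by
    have h := Polynomial.hom_eval₂ P (intHom L q)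
      (MulSemiringAction.toRingHom G (SemiLocal L q) g) x
    have hcomp : (MulSemiringAction.toRingHom G (SemiLocal L q) g).comp (intHom L q) =
        intHom L q := by
      ext z
      show g • ((1 : L) ⊗ₜ[ℚ] (z : ℚ_[q]) : SemiLocal L q) = (1 : L) ⊗ₜ[ℚ] (z : ℚ_[q])
      rw [smul_tmul_eq, smul_one]
    rw [hcomp] at h
    exact h.symm
  rw [e2] at hPx
  exact (hg _).2 hPx

/-- `L ⊗[ℚ] ℚ_[q]` is Artinian (local instance for this file). -/
local instance instArtinianSemiLocal : IsArtinianRing (SemiLocal L q) :=
  (SemiLocalGalois.semiLocalArtinian L q).1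

/-- `L ⊗[ℚ] ℚ_[q]` is reduced (local instance for this file). -/
local instance instReducedSemiLocal : IsReduced (SemiLocal L q) :=
  (SemiLocalGalois.semiLocalArtinian L q).2

/-- An element of `L ⊗[ℚ] ℚ_[q]` all of whose components are integral is integral. -/
theorem isInt_of_forall_comp {x : SemiLocal L q}
    (h : ∀ m' : Ideal (SemiLocal L q), m'.IsMaximal →
      (compInt L q m').IsIntegralElem (Ideal.Quotient.mk m' x)) : IsInt L q x := by
  classical
  have : Fintype (MaximalSpectrum (SemiLocal L q)) := Fintype.ofFinite _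
  choose P hP hPx using fun m' : MaximalSpectrum (SemiLocal L q) => h m'.asIdeal m'.isMaximal
  refine ⟨∏ m', P m', Polynomial.monic_prod_of_monic _ _ (fun m' _ => hP m'), ?_⟩
  apply SemiLocalGalois.eq_zero_of_forall_mem
  intro m hm
  rw [Polynomial.eval₂_finsetProd]
  refine Ideal.mem_of_dvd m (Finset.dvd_prod_of_mem _
    (Finset.mem_univ (⟨m, hm⟩ : MaximalSpectrum (SemiLocal L q)))) ?_
  have h1 := hPx ⟨m, hm⟩
  have e1 : Polynomial.eval₂ (compInt L q m) (Ideal.Quotient.mk m x) (P ⟨m, hm⟩) =
      Ideal.Quotient.mk m (Polynomial.eval₂ (intHom L q) x (P ⟨m, hm⟩)) :=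
    (Polynomial.hom_eval₂ (P ⟨m, hm⟩) (intHom L q) (Ideal.Quotient.mk m) x).symm
  rw [e1, Ideal.Quotient.eq_zero_iff_mem] at h1
  exact h1

/-! ### Orbit representatives of the maximal ideals -/

/-- The orbit relation on the maximal spectrum of `L ⊗[ℚ] ℚ_[q]`. -/
def orbitSetoid : Setoid (MaximalSpectrum (SemiLocal L q)) where
  r m' m := SemiLocalGalois.InOrbit G m'.asIdeal m.asIdeal
  iseqv := ⟨fun m => SemiLocalGalois.InOrbit.refl G m.asIdeal, fun h => h.symm,
    fun h₁ h₂ => h₁.trans h₂⟩

/-- The set of `G`-orbits of maximal ideals of `L ⊗[ℚ] ℚ_[q]` (the places above `q` of the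
fixed field). -/
abbrev OrbitIdx : Type := Quotient (orbitSetoid G L q)

instance instFiniteOrbitIdx : Finite (OrbitIdx G L q) := Quotient.finite _

/-- A representative of each orbit. -/
def rep (i : OrbitIdx G L q) : Ideal (SemiLocal L q) := (Quotient.out i).asIdeal

theorem rep_isMaximal (i : OrbitIdx G L q) : (rep G L q i).IsMaximal := (Quotient.out i).isMaximal

theorem rep_eq_of_inOrbit {i j : OrbitIdx G L q}
    (h : SemiLocalGalois.InOrbit G (rep G L q i) (rep G L q j)) : i = j := by
  rw [← Quotient.out_eq i, ← Quotient.out_eq j]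
  exact Quotient.sound h

theorem exists_rep (m' : Ideal (SemiLocal L q)) (hm' : m'.IsMaximal) :
    ∃ i : OrbitIdx G L q, SemiLocalGalois.InOrbit G m' (rep G L q i) :=
  ⟨Quotient.mk _ ⟨m', hm'⟩,
    SemiLocalGalois.InOrbit.symm (Quotient.mk_out (s := orbitSetoid G L q) ⟨m', hm'⟩)⟩

/-! ### Units of `L ⊗[ℚ] ℚ_[q]` and families of components -/

/-- A unit is determined by the translates of its components at the orbit representatives. -/
theorem unit_ext {u v : (SemiLocal L q)ˣ}
    (h : ∀ (i : OrbitIdx G L q) (g : G),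
      Ideal.Quotient.mk (rep G L q i) (g • (u : SemiLocal L q)) =
        Ideal.Quotient.mk (rep G L q i) (g • (v : SemiLocal L q))) : u = v := by
  apply Units.ext
  rw [← sub_eq_zero]
  apply SemiLocalGalois.eq_zero_of_forall_mem
  intro m' hm'
  obtain ⟨i, g, hg⟩ := exists_rep G L q m' hm'
  rw [hg, smul_sub, ← Ideal.Quotient.eq]
  exact h i g

/-- **Coinduction for units**: every family of functions `y i : G → (L_{w_i})ˣ`, equivariant
for the decomposition groups, is `g ↦ (g • u mod w_i)` for a unit `u` of `L ⊗[ℚ] ℚ_[q]`. -/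
theorem exists_unit_family (y : ∀ i : OrbitIdx G L q, G → (SemiLocal L q ⧸ rep G L q i)ˣ)
    (hy : ∀ (i : OrbitIdx G L q) (d : decompGroup G L q (rep G L q i)) (g : G),
      y i ((d : G) * g) = d • y i g) :
    ∃ u : (SemiLocal L q)ˣ, ∀ (i : OrbitIdx G L q) (g : G),
      Ideal.Quotient.mk (rep G L q i) (g • (u : SemiLocal L q)) =
        (y i g : SemiLocal L q ⧸ rep G L q i) := by
  classical
  have : Fintype (OrbitIdx G L q) := Fintype.ofFinite _
  have hl : ∀ (i : OrbitIdx G L q) (g : G), ∃ a : SemiLocal L q,
      Ideal.Quotient.mk (rep G L q i) a = (y i g : SemiLocal L q ⧸ rep G L q i) :=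
    fun i g => Ideal.Quotient.mk_surjective _
  have hl' : ∀ (i : OrbitIdx G L q) (g : G), ∃ a : SemiLocal L q,
      Ideal.Quotient.mk (rep G L q i) a =
        (((y i g)⁻¹ : (SemiLocal L q ⧸ rep G L q i)ˣ) : SemiLocal L q ⧸ rep G L q i) :=
    fun i g => Ideal.Quotient.mk_surjective _
  choose Φ hΦ using hl
  choose Φ' hΦ' using hl'
  have key : ∀ i : OrbitIdx G L q, ∃ u : (SemiLocal L q)ˣ,
      (∀ g : G, g • (u : SemiLocal L q) - Φ i g ∈ rep G L q i) ∧
      ∀ m' : Ideal (SemiLocal L q), m'.IsMaximal →
        (∀ g : G, ∃ a : SemiLocal L q, ¬ (a ∈ m' ↔ g • a ∈ rep G L q i)) →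
        (u : SemiLocal L q) - 1 ∈ m' := by
    intro i
    refine SemiLocalGalois.exists_unit_orbit (G := G) (rep G L q i) (rep_isMaximal G L q i)
      (Φ i) (Φ' i) (fun g => ?_) (fun d g hd => ?_)
    · rw [← Ideal.Quotient.eq, map_mul, map_one, hΦ, hΦ', Units.mul_inv]
    · have h1 := hy i ⟨d, hd⟩ g
      have h2 : ((y i (d * g) : (SemiLocal L q ⧸ rep G L q i)ˣ) : SemiLocal L q ⧸ rep G L q i) =
          (⟨d, hd⟩ : decompGroup G L q (rep G L q i)) •
            ((y i g : (SemiLocal L q ⧸ rep G L q i)ˣ) : SemiLocal L q ⧸ rep G L q i) :=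
        congrArg Units.val h1
      rw [← Ideal.Quotient.eq, hΦ, h2, ← hΦ, decomp_smul_mk]
  choose u hu1 hu2 using key
  refine ⟨∏ i, u i, fun i g => ?_⟩
  rw [Units.coe_prod, Finset.smul_prod', map_prod, Finset.prod_eq_single i]
  · rw [← hΦ, Ideal.Quotient.eq]
    exact hu1 i g
  · intro j _ hji
    rw [← map_one (Ideal.Quotient.mk (rep G L q i)), Ideal.Quotient.eq]
    have hmax := SemiLocalGalois.translate_isMaximal (rep_isMaximal G L q i) g
    have hno : ¬ SemiLocalGalois.InOrbit G (SemiLocalGalois.translate (rep G L q i) g)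
        (rep G L q j) := by
      intro h
      have h0 : SemiLocalGalois.InOrbit G (SemiLocalGalois.translate (rep G L q i) g)
          (rep G L q i) := ⟨g, fun a => Iff.rfl⟩
      exact hji (rep_eq_of_inOrbit G L q (h0.symm.trans h)).symm
    have h3 := hu2 j _ hmax (SemiLocalGalois.not_inOrbit_iff.1 hno)
    have h4 : g • ((u j : SemiLocal L q) - 1) ∈ rep G L q i := h3
    rwa [smul_sub, smul_one] at h4
  · intro h
    exact absurd (Finset.mem_univ _) h

/-- A unit all of whose translated components are integral units is a local unit. -/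
theorem mem_localUnits_of_forall {u : (SemiLocal L q)ˣ}
    (h : ∀ (i : OrbitIdx G L q) (g : G),
      Units.map (Ideal.Quotient.mk (rep G L q i)).toMonoidHom (g • u) ∈
        compUnits L q (rep G L q i)) : u ∈ localUnits L q := by
  refine ⟨isInt_of_forall_comp L q (fun m' hm' => ?_),
    isInt_of_forall_comp L q (fun m' hm' => ?_)⟩
  · obtain ⟨i, g, hg⟩ := exists_rep G L q m' hm'
    exact isIntegralElem_of_translate G L q g hg (h i g).1
  · obtain ⟨i, g, hg⟩ := exists_rep G L q m' hm'
    refine isIntegralElem_of_translate G L q g hg ?_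
    have h2 := (h i g).2
    rw [← map_inv, ← smul_inv'] at h2
    exact h2

/-- **Recognition of `U_q(L)` as a product of coinduced modules**, first half. -/
theorem units_inj (b : (localUnitsRep G L q).V)
    (hb : ∀ (i : OrbitIdx G L q) (g : G),
      (unitsProj G L q (rep G L q i)).hom ((localUnitsRep G L q).ρ g b) = 0) : b = 0 := by
  have hu : (Additive.toMul b.1 : (SemiLocal L q)ˣ) = 1 := by
    refine unit_ext G L q (fun i g => ?_)
    have h1 := hb i g
    have h2 : Ideal.Quotient.mk (rep G L q i)
        (g • ((Additive.toMul b.1 : (SemiLocal L q)ˣ) : SemiLocal L q)) = 1 :=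
      congrArg (fun z : (compUnitsRep G L q (rep G L q i)).V =>
        ((Additive.toMul z.1 : (SemiLocal L q ⧸ rep G L q i)ˣ) : SemiLocal L q ⧸ rep G L q i)) h1
    rw [h2, Units.val_one, smul_one, map_one]
  apply Subtype.ext
  exact hu

/-- **Recognition of `U_q(L)` as a product of coinduced modules**, second half. -/
theorem units_surj (F : ∀ i : OrbitIdx G L q, G → (compUnitsRep G L q (rep G L q i)).V)
    (hF : ∀ (i : OrbitIdx G L q) (h : decompGroup G L q (rep G L q i)) (g : G),
      F i ((h : G) * g) = (compUnitsRep G L q (rep G L q i)).ρ h (F i g)) :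
    ∃ b : (localUnitsRep G L q).V, ∀ (i : OrbitIdx G L q) (g : G),
      (unitsProj G L q (rep G L q i)).hom ((localUnitsRep G L q).ρ g b) = F i g := by
  obtain ⟨u, hu⟩ := exists_unit_family G L q
    (fun i g => (Additive.toMul (F i g).1 : (SemiLocal L q ⧸ rep G L q i)ˣ))
    (fun i d g => congrArg (fun z : (compUnitsRep G L q (rep G L q i)).V =>
        (Additive.toMul z.1 : (SemiLocal L q ⧸ rep G L q i)ˣ)) (hF i d g))
  have hmem : u ∈ localUnits L q := by
    refine mem_localUnits_of_forall G L q (fun i g => ?_)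
    have h1 : Units.map (Ideal.Quotient.mk (rep G L q i)).toMonoidHom (g • u) =
        Additive.toMul (F i g).1 := Units.ext (hu i g)
    rw [h1]
    exact (F i g).2
  refine ⟨⟨Additive.ofMul u, hmem⟩, fun i g => ?_⟩
  apply Subtype.ext
  apply Additive.toMul.injective
  exact Units.ext (hu i g)

/-! ### The local core at an unramified prime -/

section Core

variable [FaithfulSMul G L] (m : Ideal (SemiLocal L q)) [hm : m.IsMaximal]

/-- If `q` is unramified in `L`, every local component of `L ⊗[ℚ] ℚ_[q]` is unramified over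
`ℚ_[q]`. -/
theorem comp_isUnram (hun : UnramAt L q) :
    letI := Ideal.Quotient.field m
    letI := LocComp.compAlgebra L q m
    Local.IsUnram q ℚ_[q] (SemiLocal L q ⧸ m) := by
  let _ := Ideal.Quotient.field m
  let _ := LocComp.compAlgebra L q m
  have := LocComp.comp_finiteDimensional L q m
  exact CompDict.isUnram_base_of_isReduced q L (SemiLocal L q ⧸ m)
    ((Ideal.Quotient.mk m).comp
      (Algebra.TensorProduct.includeLeft : L →ₐ[ℚ] L ⊗[ℚ] ℚ_[q]).toRingHom)
    (CompDict.adjoin_eq_top_of_surjective q L (SemiLocal L q ⧸ m) (Ideal.Quotient.mk m)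
      Ideal.Quotient.mk_surjective (fun c => rfl)) hun

/-- At an unramified prime every invariant integral unit of a local component is a norm of an
integral unit. -/
theorem comp_exists_norm [Fintype (decompGroup G L q m)] (hun : UnramAt L q)
    (y : (SemiLocal L q ⧸ m)ˣ) (hy : y ∈ compUnits L q m)
    (hfix : ∀ d : decompGroup G L q m, d • y = y) :
    ∃ w ∈ compUnits L q m, ∏ d : decompGroup G L q m, d • w = y := by
  let _ := Ideal.Quotient.field m
  let _ := LocComp.compAlgebra L q m
  have := LocComp.comp_finiteDimensional L q m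
  have := SemiLocalGalois.faithfulSMul_decomp G L q m hm
  exact exists_norm_of_fixed q (decompGroup G L q m) (SemiLocal L q ⧸ m)
    (LocComp.decomp_smul_algebraMap G L q m) (comp_isUnram L q m hun) y hy hfix

/-- At an unramified prime the decomposition group is cyclic, generated by an element `g` such
that every unit of norm `1` of the local component is `g w / w` for an integral unit `w`. -/
theorem comp_exists_generator [Fintype (decompGroup G L q m)] (hun : UnramAt L q) :
    ∃ g : decompGroup G L q m, (∀ x, x ∈ Subgroup.zpowers g) ∧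
      ∀ y : (SemiLocal L q ⧸ m)ˣ, ∏ d : decompGroup G L q m, d • y = 1 →
        ∃ w ∈ compUnits L q m, g • w / w = y := by
  let _ := Ideal.Quotient.field m
  let _ := LocComp.compAlgebra L q m
  have := LocComp.comp_finiteDimensional L q m
  have := SemiLocalGalois.faithfulSMul_decomp G L q m hm
  exact exists_generator q (decompGroup G L q m) (SemiLocal L q ⧸ m)
    (LocComp.decomp_smul_algebraMap G L q m) (comp_isUnram L q m hun)

/-- **Local core of [C3]**: at an unramified prime the integral units of a local component are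
cohomologically trivial in positive degrees. -/
theorem isZero_compUnitsRep [Finite G] (hun : UnramAt L q) (n : ℕ) (hn : 1 ≤ n) :
    Limits.IsZero (groupCohomology (compUnitsRep G L q m) n) := by
  classical
  let _ : Fintype (decompGroup G L q m) := Fintype.ofFinite _
  obtain ⟨g, hg, hN⟩ := comp_exists_generator G L q m hun
  have hI : ∀ u ∈ compUnits L q m, g • u = u →
      ∃ w ∈ compUnits L q m, ∏ σ : decompGroup G L q m, σ • w = u :=
    fun u hu hfix => comp_exists_norm G L q m hun u hu (smul_eq_of_forall_mem_zpowers hg hfix)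
  have hN' : ∀ u ∈ compUnits L q m, ∏ σ : decompGroup G L q m, σ • u = 1 →
      ∃ w ∈ compUnits L q m, g • w / w = u := fun u _ h => hN u h
  have key := isZero_subRep_of_cyclic (G := decompGroup G L q m) (M := (SemiLocal L q ⧸ m)ˣ)
    (compUnits L q m) (fun d y hy => smul_mem_compUnits G L q m d y hy) g hg hN' hI n hn
  exact key

end Core

/-! ### [C3] for the semilocal algebra -/

section Main

variable [Fintype G] [FaithfulSMul G L]

/-- **[C3]**, positive degrees: at an unramified prime `Hⁿ(G, U_q(L)) = 0` for all `n ≥ 1`. -/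
theorem isZero_localUnitsRep (hun : UnramAt L q) (n : ℕ) (hn : 1 ≤ n) :
    Limits.IsZero (groupCohomology (localUnitsRep G L q) n) :=
  Coh.Semilocal.isZero_of_family (H := fun i : OrbitIdx G L q => decompGroup G L q (rep G L q i))
    (B := localUnitsRep G L q) (A := fun i => compUnitsRep G L q (rep G L q i))
    (f := fun i => unitsProj G L q (rep G L q i))
    (Coh.Semilocal.total_bijective_of_forall (units_inj G L q) (units_surj G L q)) n
    (fun i =>
      haveI := rep_isMaximal G L q i
      isZero_compUnitsRep G L q (rep G L q i) hun n hn)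

/-- **[C3]**, degree `0`: at an unramified prime every `G`-invariant local unit is the norm of a
local unit. -/
theorem exists_norm_localUnits (hun : UnramAt L q) (u : (SemiLocal L q)ˣ)
    (hu : u ∈ localUnits L q) (hfix : ∀ g : G, g • u = u) :
    ∃ w ∈ localUnits L q, ∏ g : G, g • w = u := by
  classical
  have hcomp : ∀ i : OrbitIdx G L q, ∃ v ∈ compUnits L q (rep G L q i),
      ∏ d : decompGroup G L q (rep G L q i), d • v =
        Units.map (Ideal.Quotient.mk (rep G L q i)).toMonoidHom u := by
    intro i
    have := rep_isMaximal G L q i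
    refine comp_exists_norm G L q (rep G L q i) hun _ (map_mk_mem_compUnits L q _ hu)
      (fun d => ?_)
    apply Units.ext
    show d • Ideal.Quotient.mk (rep G L q i) (u : SemiLocal L q) =
      Ideal.Quotient.mk (rep G L q i) (u : SemiLocal L q)
    rw [decomp_smul_mk]
    congr 1
    exact congrArg Units.val (hfix d.1)
  choose v hv hvN using hcomp
  let y : ∀ i : OrbitIdx G L q, G → (SemiLocal L q ⧸ rep G L q i)ˣ := fun i g =>
    if h : g ∈ decompGroup G L q (rep G L q i) then
      (⟨g, h⟩ : decompGroup G L q (rep G L q i)) • v i else 1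
  obtain ⟨w, hw⟩ := exists_unit_family G L q y (fun i d g => by
    by_cases h : g ∈ decompGroup G L q (rep G L q i)
    · have h' : (d : G) * g ∈ decompGroup G L q (rep G L q i) := mul_mem d.2 h
      simp only [y, dif_pos h, dif_pos h']
      rw [← mul_smul]
      rfl
    · have h' : (d : G) * g ∉ decompGroup G L q (rep G L q i) := fun hc => h (by
        have := mul_mem (inv_mem d.2) hc
        rwa [inv_mul_cancel_left] at this)
      simp only [y, dif_neg h, dif_neg h', smul_one])
  have hwy : ∀ (i : OrbitIdx G L q) (g : G),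
      Units.map (Ideal.Quotient.mk (rep G L q i)).toMonoidHom (g • w) = y i g :=
    fun i g => Units.ext (hw i g)
  refine ⟨w, mem_localUnits_of_forall G L q (fun i g => ?_), unit_ext G L q (fun i g₀ => ?_)⟩
  · rw [hwy]
    by_cases h : g ∈ decompGroup G L q (rep G L q i)
    · simp only [y, dif_pos h]
      exact smul_mem_compUnits G L q _ _ _ (hv i)
    · simp only [y, dif_neg h]
      exact one_mem _
  · have hprod : ∏ g : G, y i g =
        Units.map (Ideal.Quotient.mk (rep G L q i)).toMonoidHom u := by
      rw [← hvN i]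
      exact prod_dite_mem (decompGroup G L q (rep G L q i)) (fun d => d • v i)
    have h1 : Ideal.Quotient.mk (rep G L q i)
        (g₀ • ((∏ g : G, g • w : (SemiLocal L q)ˣ) : SemiLocal L q)) =
        ((∏ g : G, y i g : (SemiLocal L q ⧸ rep G L q i)ˣ) : SemiLocal L q ⧸ rep G L q i) := by
      rw [Units.coe_prod, Units.coe_prod, Finset.smul_prod', map_prod,
        ← Equiv.prod_comp (Equiv.mulLeft g₀)
          (fun g => ((y i g : (SemiLocal L q ⧸ rep G L q i)ˣ) : SemiLocal L q ⧸ rep G L q i))]
      refine Finset.prod_congr rfl (fun g _ => ?_)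
      rw [Equiv.coe_mulLeft, ← hw i (g₀ * g), mul_smul]
      rfl
    rw [h1, hprod]
    show Ideal.Quotient.mk (rep G L q i) (u : SemiLocal L q) =
      Ideal.Quotient.mk (rep G L q i) (g₀ • (u : SemiLocal L q))
    congr 1
    exact (congrArg Units.val (hfix g₀)).symm

/-- **[C3]**, degree `0`, in the form of the plan: `Ĥ⁰(G, U_q(L)) = 0`. -/
theorem h0_localUnitsRep (hun : UnramAt L q) :
    h0 (ofRepresentation (localUnitsRep G L q).ρ) = 1 :=
  (h0_subRep_eq_one_iff (localUnits L q) _).2
    (fun u hu hfix => exists_norm_localUnits G L q hun u hu hfix)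

end Main

end Comp

/-- **[C3]** (`Plan.LocUnitsAcyclic` of the Global plan): at an unramified prime the local units
are cohomologically trivial: `Hⁿ(G, U_q(L)) = 0` for `n ≥ 1` and every invariant unit is a
norm. -/
theorem locUnitsAcyclic : Global.Plan.LocUnitsAcyclic := by
  intro G L _ _ _ _ _ _ q _ hun
  exact ⟨fun n hn => isZero_localUnitsRep G L q hun n hn, h0_localUnitsRep G L q hun⟩

end Fermat.Agent.CFT.Bridge.LocUnits
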