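import Mathlib
import Fermat.Prelude.Def_FLTPrelim_Ramification
import Fermat.Prelude.Def_GroupCohomology_ContinuousUnramified
import Fermat.Agent.Lib.InertiaLift

/-!
# [PD] Place dictionary (helper41)

A dictionary between the Prelude's vocabulary for places of `Q̄` (valuation subrings `A` of
`AlgebraicClosure ℚ`, `ValuationSubring.decompositionSubgroup`, `ValuationSubring.inertiaSubgroupIn`,
`ValuationSubring.LiesOverPrime`, `IntermediateField.IsUnramifiedOutside`) and Mathlib's
vocabulary for number fields (primes of `𝓞 F`, `MulAction.stabilizer`, `Ideal.inertia`,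
`Algebra.IsUnramifiedAt`, `Algebra.IsUnramifiedIn`, reduced fibres `𝓞 F ⧸ (q)`).

Main statements (`Qb := AlgebraicClosure ℚ`, `Gam := Qb ≃ₐ[ℚ] Qb`, `Zb := integralClosure ℤ Qb`):

* (PD1) `center_injective`, `exists_center_eq`, `exists_smul_eq_of_liesOverPrime`,
  `centerAt`, `exists_centerAt_eq`, `exists_smul_eq_of_centerAt_eq`;
* (PD2) `res`, `centerAt_smul`, `res_mem_stabilizer`, `exists_mem_decomposition_res_eq`,
  `res_mem_inertia`, `exists_mem_inertia_res_eq`;
* (PD3) `inertia_le_fixingSubgroup_iff`, `isUnramifiedOutside_iff`;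
* (PD5) `mem_inertiaSubgroupIn_smul_iff`, `liesOverPrime_smul`,
  `isUnramifiedOutside_normalClosure`, `normal_normalClosure`;
* (PD6) `isReduced_quotient_span_natCast_iff` (abstract number field),
  `isUnramifiedOutside_iff_isReduced`, `isReduced_quotient_of_isUnramifiedOutside`,
  `isUnramifiedAt_of_isUnramifiedOutside`, `isUnramifiedIn_of_isUnramifiedOutside`.
-/

set_option autoImplicit false

namespace Fermat.Agent.CFT.PlaceDict

open scoped Pointwise NumberField
open Fermat.Agent.Lib.FrobExists Fermat.Agent.Lib.InertiaLift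

section General

variable {K L : Type*} [Field K] [Field L] [Algebra K L] (A : ValuationSubring L)

theorem mem_nonunits_iff_inv (x : L) : x ∈ A.nonunits ↔ x = 0 ∨ x⁻¹ ∉ A := by
  have h := A.inv_mem_nonunits_iff (x := x⁻¹)
  rw [inv_inv, inv_eq_zero] at h
  exact h

theorem mem_smul_iff (σ : L ≃ₐ[K] L) (x : L) : x ∈ σ • A ↔ σ.symm x ∈ A := by
  rw [ValuationSubring.mem_pointwise_smul_iff_inv_smul_mem]
  rfl

theorem mem_nonunits_smul_iff (σ : L ≃ₐ[K] L) (x : L) :
    x ∈ (σ • A).nonunits ↔ σ.symm x ∈ A.nonunits := by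
  rw [mem_nonunits_iff_inv, mem_nonunits_iff_inv, mem_smul_iff, map_inv₀]
  simp

/-- `σ` lies in the inertia subgroup of `A` iff it moves every element of `A` by a non-unit. -/
theorem mem_inertiaSubgroupIn_iff (σ : L ≃ₐ[K] L) :
    σ ∈ A.inertiaSubgroupIn K ↔ ∀ x ∈ A, σ x - x ∈ A.nonunits := by
  refine ⟨fun hσ x hx => ?_, mem_inertiaSubgroupIn_of_sub_mem A σ⟩
  obtain ⟨τ, hτ, rfl⟩ := hσ
  have h1 : MulSemiringAction.toRingAut (A.decompositionSubgroup K)
      (IsLocalRing.ResidueField A) τ = 1 := hτ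
  have h2 : τ • IsLocalRing.residue A ⟨x, hx⟩ = IsLocalRing.residue A ⟨x, hx⟩ := by
    have := congrArg (fun f => f (IsLocalRing.residue A ⟨x, hx⟩)) h1
    simpa using this
  rw [← IsLocalRing.ResidueField.residue_smul] at h2
  have h3 : τ • (⟨x, hx⟩ : A) - ⟨x, hx⟩ ∈ IsLocalRing.maximalIdeal A := by
    rw [← Ideal.Quotient.eq]
    exact h2
  rw [← ValuationSubring.coe_mem_nonunits_iff] at h3
  exact h3

theorem mem_decompositionSubgroup_iff (σ : L ≃ₐ[K] L) :
    σ ∈ A.decompositionSubgroup K ↔ σ • A = A := Iff.rfl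

/-- conjugation of inertia subgroups -/
theorem mem_inertiaSubgroupIn_smul_iff (σ τ : L ≃ₐ[K] L) :
    τ ∈ (σ • A).inertiaSubgroupIn K ↔ σ⁻¹ * τ * σ ∈ A.inertiaSubgroupIn K := by
  rw [mem_inertiaSubgroupIn_iff, mem_inertiaSubgroupIn_iff]
  constructor
  · intro h x hx
    have h1 := h (σ x) ((mem_smul_iff A σ _).mpr (by simpa using hx))
    rw [mem_nonunits_smul_iff] at h1
    simpa [AlgEquiv.mul_apply, AlgEquiv.aut_inv] using h1
  · intro h x hx
    rw [mem_smul_iff] at hx
    have h1 := h _ hx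
    rw [mem_nonunits_smul_iff]
    simpa [AlgEquiv.mul_apply, AlgEquiv.aut_inv] using h1

end General

noncomputable section

/-! ### Centres on the ring of all algebraic integers -/

theorem mem_center_smul_iff (A : ValuationSubring Qb) (σ : Gam) (b : Zb) :
    b ∈ center (σ • A) ↔ σ⁻¹ • b ∈ center A := by
  rw [mem_center, mem_center, mem_nonunits_smul_iff]
  rfl

theorem center_smul (A : ValuationSubring Qb) (σ : Gam) : center (σ • A) = σ • center A := by
  ext b
  rw [mem_center_smul_iff, Ideal.mem_pointwise_smul_iff_inv_smul_mem]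

/-- A valuation subring of `Q̄` is determined by its centre on the algebraic integers. -/
theorem le_of_center_le (A A' : ValuationSubring Qb) (h : center A' ≤ center A) : A ≤ A' := by
  intro x hx
  obtain ⟨a, b, ha, hb, hbn, hxb⟩ := exists_integral_mul_eq A hx
  have hb' : b ∉ A'.nonunits := fun hb' =>
    hbn ((mem_center A ⟨b, hb⟩).mp (h ((mem_center A' ⟨b, hb⟩).mpr hb')))
  have hbA' : b ∈ A' := mem_of_isIntegral_int A' hb
  have hb0 : b ≠ 0 := by
    rintro rfl
    apply hb'
    rw [ValuationSubring.mem_nonunits_iff, map_zero]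
    exact zero_lt_one
  have hbinv : b⁻¹ ∈ A' := by
    by_contra hcon
    apply hb'
    rw [mem_nonunits_iff_inv]
    exact Or.inr hcon
  have hx' : x = a * b⁻¹ := by rw [← hxb]; field_simp
  rw [hx']
  exact A'.mul_mem _ _ (mem_of_isIntegral_int A' ha) hbinv

theorem eq_of_center_eq (A A' : ValuationSubring Qb) (h : center A = center A') : A = A' :=
  le_antisymm (le_of_center_le A A' h.ge) (le_of_center_le A' A h.le)

theorem center_injective : Function.Injective (center : ValuationSubring Qb → Ideal Zb) :=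
  fun A A' h => eq_of_center_eq A A' h

theorem center_ne_top (A : ValuationSubring Qb) : center A ≠ ⊤ :=
  (center_isPrime A).ne_top

/-- every maximal ideal of the ring of algebraic integers is a centre -/
theorem exists_center_eq (Q : Ideal Zb) [hQ : Q.IsMaximal] :
    ∃ A : ValuationSubring Qb, center A = Q := by
  let Q' : Ideal (Zb).toSubring := Q
  have hQ' : Q' ≠ ⊤ := hQ.ne_top
  obtain ⟨V, -, hV⟩ := Ideal.image_subset_nonunits_valuationSubring Q' hQ'
  refine ⟨V, (hQ.eq_of_le (center_ne_top V) ?_).symm⟩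
  intro b hb
  rw [mem_center]
  exact hV ⟨b, hb, rfl⟩

theorem under_center_eq_span (A : ValuationSubring Qb) (q : ℕ) (hq : q.Prime)
    (hA : A.LiesOverPrime q) : (center A).under ℤ = Ideal.span {(q : ℤ)} := by
  have hmax : (Ideal.span {(q : ℤ)}).IsMaximal :=
    PrincipalIdealRing.isMaximal_of_irreducible
      (Nat.prime_iff_prime_int.mp hq).irreducible
  have hle : Ideal.span {(q : ℤ)} ≤ (center A).under ℤ := by
    rw [Ideal.span_singleton_le_iff_mem, Ideal.mem_comap]
    have := natCast_mem_center A q hA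
    simpa using this
  have hne : (center A).under ℤ ≠ ⊤ := by
    have : ((center A).under ℤ).IsPrime := Ideal.comap_isPrime _ _
    exact this.ne_top
  exact (hmax.eq_of_le hne hle).symm

theorem isMaximal_center (A : ValuationSubring Qb) (q : ℕ) (hq : q.Prime)
    (hA : A.LiesOverPrime q) : (center A).IsMaximal := by
  have hmax : ((center A).comap (algebraMap ℤ Zb)).IsMaximal := by
    have h := under_center_eq_span A q hq hA
    have hmax : (Ideal.span {(q : ℤ)}).IsMaximal :=
      PrincipalIdealRing.isMaximal_of_irreducible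
        (Nat.prime_iff_prime_int.mp hq).irreducible
    rw [← h] at hmax
    exact hmax
  exact Ideal.isMaximal_of_isIntegral_of_isMaximal_comap (center A) hmax

/-- **Conjugacy of places.** Two valuation subrings of `Q̄` lying over the same prime number are
conjugate under `Gal(Q̄/ℚ)`. -/
theorem exists_smul_eq_of_liesOverPrime (A A' : ValuationSubring Qb) (q : ℕ) (hq : q.Prime)
    (hA : A.LiesOverPrime q) (hA' : A'.LiesOverPrime q) : ∃ σ : Gam, A' = σ • A := by
  let _ : TopologicalSpace Zb := ⊥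
  have : DiscreteTopology Zb := ⟨rfl⟩
  have : ContinuousSMul Gam Zb := continuousSMulIntegralClosure
  have h : (center A).under ℤ = (center A').under ℤ := by
    rw [under_center_eq_span A q hq hA, under_center_eq_span A' q hq hA']
  obtain ⟨g, hg⟩ := Algebra.IsInvariant.exists_smul_of_under_eq_of_profinite
    (A := ℤ) (G := Gam) (center A) (center A') h
  refine ⟨g, eq_of_center_eq _ _ ?_⟩
  rw [center_smul, hg]

/-! ### The centre of a valuation subring on the ring of integers of a subfield -/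

/-- the prime of `𝓞 F` cut out by the valuation subring `A` of `Q̄` -/
def centerAt (F : IntermediateField ℚ Qb) (A : ValuationSubring Qb) : Ideal (𝓞 F) :=
  (center A).comap (toZb F)

instance centerAt_isPrime (F : IntermediateField ℚ Qb) (A : ValuationSubring Qb) :
    (centerAt F A).IsPrime :=
  Ideal.comap_isPrime (toZb F) _

theorem mem_centerAt (F : IntermediateField ℚ Qb) (A : ValuationSubring Qb) (x : 𝓞 F) :
    x ∈ centerAt F A ↔ (((x : F) : Qb)) ∈ A.nonunits := by
  rw [centerAt, Ideal.mem_comap, mem_center]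
  rfl

theorem natCast_mem_centerAt (F : IntermediateField ℚ Qb) (A : ValuationSubring Qb) (q : ℕ)
    (hA : A.LiesOverPrime q) : (q : 𝓞 F) ∈ centerAt F A := by
  rw [mem_centerAt]
  have h : (q : Qb) ∈ A.nonunits := hA
  simpa using h

theorem toZb_injective (F : IntermediateField ℚ Qb) : Function.Injective (toZb F) := by
  intro x y h
  have h1 : (((x : F) : Qb)) = ((y : F) : Qb) := congrArg (fun z : Zb => (z : Qb)) h
  exact NumberField.RingOfIntegers.ext (Subtype.ext h1)

theorem centerAt_smul_of_mem_fixingSubgroup (F : IntermediateField ℚ Qb) (A : ValuationSubring Qb)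
    (σ : Gam) (hσ : σ ∈ F.fixingSubgroup) : centerAt F (σ • A) = centerAt F A := by
  ext x
  rw [mem_centerAt, mem_centerAt, mem_nonunits_smul_iff]
  have h1 : σ ((x : F) : Qb) = ((x : F) : Qb) := hσ ⟨_, (x : F).2⟩
  have h2 : σ.symm ((x : F) : Qb) = ((x : F) : Qb) := by
    rw [AlgEquiv.symm_apply_eq, h1]
  rw [h2]

/-- the integer of `F` attached to an algebraic integer of `Q̄` lying in `F` -/
def ofMem (F : IntermediateField ℚ Qb) (b : Qb) (hb : IsIntegral ℤ b) (hF : b ∈ F) : 𝓞 F :=
  ⟨⟨b, hF⟩, (isIntegral_algebraMap_iff (algebraMap F Qb).injective).mp hb⟩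

theorem coe_ofMem (F : IntermediateField ℚ Qb) (b : Qb) (hb : IsIntegral ℤ b) (hF : b ∈ F) :
    (((ofMem F b hb hF : 𝓞 F) : F) : Qb) = b := rfl

/-- **Every prime of `𝓞 F` is a centre.** -/
theorem exists_centerAt_eq (F : IntermediateField ℚ Qb) [NumberField F] (P : Ideal (𝓞 F))
    [hP : P.IsPrime] : ∃ A : ValuationSubring Qb, centerAt F A = P := by
  by_cases hP0 : P = ⊥
  · refine ⟨⊤, ?_⟩
    rw [hP0, eq_bot_iff]
    intro x hx
    rw [mem_centerAt, ValuationSubring.mem_nonunits_iff] at hx
    have h1 : ((x : F) : Qb) = 0 := by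
      by_contra h0
      have : (⊤ : ValuationSubring Qb).valuation ((x : F) : Qb) = 1 := by
        have h2 : (⊤ : ValuationSubring Qb).valuation ((x : F) : Qb) ≤ 1 :=
          ((⊤ : ValuationSubring Qb).valuation_le_one_iff _).mpr trivial
        have h3 : (⊤ : ValuationSubring Qb).valuation (((x : F) : Qb))⁻¹ ≤ 1 :=
          ((⊤ : ValuationSubring Qb).valuation_le_one_iff _).mpr trivial
        rw [map_inv₀] at h3
        have h4 : (⊤ : ValuationSubring Qb).valuation ((x : F) : Qb) ≠ 0 :=
          (Valuation.ne_zero_iff _).mpr h0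
        exact le_antisymm h2 ((inv_le_one₀ (zero_lt_iff.mpr h4)).mp h3)
      rw [this] at hx
      exact lt_irrefl _ hx
    have h2 : (x : F) = 0 := Subtype.ext h1
    simpa using h2
  · have hmax : P.IsMaximal := hP.isMaximal hP0
    let _ : Algebra (𝓞 F) Zb := (toZb F).toAlgebra
    have hint : Algebra.IsIntegral (𝓞 F) Zb :=
      ⟨fun z => (integralClosure.isIntegral z).tower_top⟩
    have hker : RingHom.ker (algebraMap (𝓞 F) Zb) ≤ P := by
      intro x hx
      have hx' : toZb F x = 0 := hx
      have : x = 0 := toZb_injective F (by rw [hx', map_zero])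
      rw [this]
      exact P.zero_mem
    obtain ⟨Q, hQ, hQP⟩ := Ideal.exists_ideal_over_maximal_of_isIntegral P hker
    obtain ⟨A, hA⟩ := exists_center_eq Q
    refine ⟨A, ?_⟩
    rw [centerAt, hA]
    exact hQP

/-- **Relative conjugacy of places.** Two valuation subrings of `Q̄` with the same centre on
`𝓞 F` are conjugate under `Gal(Q̄/F)`. -/
theorem exists_smul_eq_of_centerAt_eq (F : IntermediateField ℚ Qb) (A A' : ValuationSubring Qb)
    (h : centerAt F A = centerAt F A') : ∃ σ ∈ F.fixingSubgroup, A' = σ • A := by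
  have hclosed : IsClosed (F.fixingSubgroup : Set Gam) := InfiniteGalois.fixingSubgroup_isClosed F
  have hPQ : (center A).under (FixedPoints.subring Zb F.fixingSubgroup) =
      (center A').under (FixedPoints.subring Zb F.fixingSubgroup) := by
    ext a
    rw [Ideal.mem_comap, Ideal.mem_comap]
    have hF : ((a : Zb) : Qb) ∈ F := by
      have hmem : ((a : Zb) : Qb) ∈ IntermediateField.fixedField F.fixingSubgroup := by
        rw [IntermediateField.mem_fixedField_iff]
        intro σ hσ
        exact congrArg (fun z : Zb => (z : Qb)) (a.2 ⟨σ, hσ⟩)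
      rwa [InfiniteGalois.fixedField_fixingSubgroup F] at hmem
    have key : ∀ B : ValuationSubring Qb, (a : Zb) ∈ center B ↔
        ofMem F ((a : Zb) : Qb) (a : Zb).2 hF ∈ centerAt F B := by
      intro B
      rw [mem_centerAt, mem_center]
      rfl
    show (a : Zb) ∈ center A ↔ (a : Zb) ∈ center A'
    rw [key A, key A', h]
  obtain ⟨σ, hσ, hσQ⟩ := exists_smul_center_eq F.fixingSubgroup hclosed (center A) (center A') hPQ
  refine ⟨σ, hσ, eq_of_center_eq _ _ ?_⟩
  rw [center_smul, hσQ]

/-! ### Decomposition and inertia groups at finite level -/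

section Restrict

variable (F : IntermediateField ℚ Qb) [Normal ℚ F]

/-- restriction `Gal(Q̄/ℚ) → Gal(F/ℚ)` -/
abbrev res : Gam →* (F ≃ₐ[ℚ] F) := AlgEquiv.restrictNormalHom F

theorem coe_res (σ : Gam) (x : F) : ((res F σ x : F) : Qb) = σ (x : Qb) :=
  AlgEquiv.restrictNormal_commutes σ F x

theorem res_eq_one_iff (σ : Gam) : res F σ = 1 ↔ σ ∈ F.fixingSubgroup := by
  rw [IntermediateField.mem_fixingSubgroup_iff]
  constructor
  · intro h x hx
    have h1 := coe_res F σ ⟨x, hx⟩
    rw [h] at h1
    exact h1.symm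
  · intro h
    ext x
    rw [coe_res]
    exact h x x.2

theorem res_surjective : Function.Surjective (res F) :=
  AlgEquiv.restrictNormalHom_surjective Qb

omit [Normal ℚ F] in
theorem coe_smul_integer (τ : F ≃ₐ[ℚ] F) (x : 𝓞 F) : ((τ • x : 𝓞 F) : F) = τ (x : F) := rfl

theorem centerAt_smul (A : ValuationSubring Qb) (σ : Gam) :
    centerAt F (σ • A) = res F σ • centerAt F A := by
  ext x
  rw [Ideal.mem_pointwise_smul_iff_inv_smul_mem, mem_centerAt, mem_centerAt,
    mem_nonunits_smul_iff, coe_smul_integer, ← map_inv, coe_res]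
  rfl

/-- the restriction of the decomposition group of `A` stabilises the centre of `A` on `𝓞 F` -/
theorem res_mem_stabilizer (A : ValuationSubring Qb) {σ : Gam}
    (hσ : σ ∈ A.decompositionSubgroup ℚ) :
    res F σ ∈ MulAction.stabilizer (F ≃ₐ[ℚ] F) (centerAt F A) := by
  rw [MulAction.mem_stabilizer_iff, ← centerAt_smul]
  have h : σ • A = A := hσ
  rw [h]

/-- **The decomposition group of `A` surjects onto the decomposition group of its centre.** -/
theorem exists_mem_decomposition_res_eq (A : ValuationSubring Qb) (τ : F ≃ₐ[ℚ] F)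
    (hτ : τ ∈ MulAction.stabilizer (F ≃ₐ[ℚ] F) (centerAt F A)) :
    ∃ σ ∈ A.decompositionSubgroup ℚ, res F σ = τ := by
  obtain ⟨σ₀, rfl⟩ := res_surjective F τ
  rw [MulAction.mem_stabilizer_iff, ← centerAt_smul] at hτ
  obtain ⟨ρ, hρ, hρA⟩ := exists_smul_eq_of_centerAt_eq F (σ₀ • A) A hτ
  refine ⟨ρ * σ₀, ?_, ?_⟩
  · show (ρ * σ₀) • A = A
    rw [mul_smul, ← hρA]
  · rw [map_mul, (res_eq_one_iff F ρ).mpr hρ, one_mul]

/-- the restriction of the inertia group of `A` lies in the inertia group of its centre -/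
theorem res_mem_inertia (A : ValuationSubring Qb) {σ : Gam} (hσ : σ ∈ A.inertiaSubgroupIn ℚ) :
    res F σ ∈ (centerAt F A).inertia (F ≃ₐ[ℚ] F) := by
  intro x
  show res F σ • x - x ∈ centerAt F A
  rw [mem_centerAt]
  have hx : (((x : F) : Qb)) ∈ A := mem_of_isIntegral_int A (toZb F x).2
  have h := (mem_inertiaSubgroupIn_iff A σ).mp hσ _ hx
  rw [← coe_res] at h
  exact h

/-- **The inertia group of `A` surjects onto the inertia group of its centre.** -/
theorem exists_mem_inertia_res_eq (A : ValuationSubring Qb) (τ : F ≃ₐ[ℚ] F)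
    (hτ : τ ∈ (centerAt F A).inertia (F ≃ₐ[ℚ] F)) :
    ∃ σ ∈ A.inertiaSubgroupIn ℚ, res F σ = τ := by
  obtain ⟨σ, hσ, hσF⟩ := exists_inertia_lift F A τ (by
    intro x hx
    let X : 𝓞 F := ⟨x, hx⟩
    have h : τ • X - X ∈ centerAt F A := hτ X
    rw [mem_centerAt] at h
    exact h)
  refine ⟨σ, hσ, ?_⟩
  ext x
  rw [coe_res, hσF]

end Restrict

/-! ### The unramified dictionary -/

section Unramified

variable (F : IntermediateField ℚ Qb) [FiniteDimensional ℚ F] [IsGalois ℚ F]

theorem card_inertia_eq_one_iff (P : Ideal (𝓞 F)) [P.IsPrime] :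
    Nat.card (P.inertia (F ≃ₐ[ℚ] F)) = 1 ↔ Algebra.IsUnramifiedAt ℤ P := by
  have hnf : NumberField F := { to_charZero := inferInstance, to_finiteDimensional := inferInstance }
  have h3 : Nat.card (P.inertia (F ≃ₐ[ℚ] F)) = (P.under ℤ).ramificationIdxIn (𝓞 F) :=
    Ideal.card_inertia_eq_ramificationIdxIn (P.under ℤ) P
  have h4 : (P.under ℤ).ramificationIdxIn (𝓞 F) = P.ramificationIdx ℤ :=
    Ideal.ramificationIdxIn_eq_ramificationIdx (P.under ℤ) P (F ≃ₐ[ℚ] F)
  rw [h3, h4]
  exact Ideal.ramificationIdx_eq_one_iff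

/-- **Unramified dictionary, one place.** The (Prelude) inertia subgroup of `A` fixes the finite
Galois extension `F` iff the centre of `A` on `𝓞 F` is unramified over `ℤ` (Mathlib). -/
theorem inertia_le_fixingSubgroup_iff (A : ValuationSubring Qb) :
    A.inertiaSubgroupIn ℚ ≤ F.fixingSubgroup ↔ Algebra.IsUnramifiedAt ℤ (centerAt F A) := by
  rw [← card_inertia_eq_one_iff, Subgroup.card_eq_one, Subgroup.eq_bot_iff_forall]
  constructor
  · intro h τ hτ
    obtain ⟨σ, hσ, rfl⟩ := exists_mem_inertia_res_eq F A τ hτ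
    exact (res_eq_one_iff F σ).mpr (h hσ)
  · intro h σ hσ
    exact (res_eq_one_iff F σ).mp (h _ (res_mem_inertia F A hσ))

/-- **Unramified dictionary.** A finite Galois `F/ℚ` inside `Q̄` is unramified outside `S` in the
sense of the Prelude (all inertia subgroups at primes outside `S` fix `F`) iff every prime of
`𝓞 F` over a rational prime outside `S` is unramified over `ℤ` in the sense of Mathlib. -/
theorem isUnramifiedOutside_iff (S : Finset Nat.Primes) :
    F.IsUnramifiedOutside S ↔ ∀ q : Nat.Primes, q ∉ S → ∀ (P : Ideal (𝓞 F)) (_ : P.IsPrime),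
      ((q : ℕ) : 𝓞 F) ∈ P → Algebra.IsUnramifiedAt ℤ P := by
  have hnf : NumberField F := { to_charZero := inferInstance, to_finiteDimensional := inferInstance }
  constructor
  · intro h q hq P hP hqP
    obtain ⟨A, rfl⟩ := exists_centerAt_eq F P
    have hA : A.LiesOverPrime (q : ℕ) := by
      rw [mem_centerAt] at hqP
      show (((q : ℕ) : Qb)) ∈ A.nonunits
      simpa using hqP
    exact (inertia_le_fixingSubgroup_iff F A).mp (h.2 q hq A hA)
  · intro h
    exact ⟨inferInstance, fun q hq A hA => (inertia_le_fixingSubgroup_iff F A).mpr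
      (h q hq (centerAt F A) inferInstance (natCast_mem_centerAt F A q hA))⟩

end Unramified

/-! ### `(q)` radical in `𝓞 K` iff all primes over `q` are unramified (abstract number field) -/

end

section Reduced

variable (K : Type*) [Field K]

theorem span_natCast_eq_map (q : ℕ) :
    Ideal.span {((q : ℕ) : 𝓞 K)} =
      (Ideal.span {((q : ℕ) : ℤ)}).map (algebraMap ℤ (𝓞 K)) := by
  rw [Ideal.map_span, Set.image_singleton]
  simp

theorem liesOver_span_of_mem (q : ℕ) (hq : q.Prime) (P : Ideal (𝓞 K)) [hP : P.IsPrime]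
    (h : ((q : ℕ) : 𝓞 K) ∈ P) : P.LiesOver (Ideal.span {((q : ℕ) : ℤ)}) := by
  have hmax : (Ideal.span {((q : ℕ) : ℤ)}).IsMaximal :=
    PrincipalIdealRing.isMaximal_of_irreducible
      (Nat.prime_iff_prime_int.mp hq).irreducible
  refine ⟨?_⟩
  have hle : Ideal.span {((q : ℕ) : ℤ)} ≤ P.under ℤ := by
    rw [Ideal.span_singleton_le_iff_mem, Ideal.mem_comap]
    simpa using h
  have hne : P.under ℤ ≠ ⊤ := (Ideal.IsPrime.under ℤ P).ne_top
  exact hmax.eq_of_le hne hle

variable [NumberField K]

theorem span_natCast_le_sq_iff (q : ℕ) (hq : q.Prime) (P : Ideal (𝓞 K)) [hP : P.IsPrime]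
    (h : ((q : ℕ) : 𝓞 K) ∈ P) :
    ¬ Ideal.span {((q : ℕ) : 𝓞 K)} ≤ P ^ 2 ↔ Algebra.IsUnramifiedAt ℤ P := by
  have hlo := liesOver_span_of_mem K q hq P h
  have hp0 : Ideal.span {((q : ℕ) : ℤ)} ≠ ⊥ := by
    simp [hq.ne_zero]
  have hmapP : (Ideal.span {((q : ℕ) : ℤ)}).map (algebraMap ℤ (𝓞 K)) ≤ P := by
    rw [← span_natCast_eq_map, Ideal.span_singleton_le_iff_mem]
    exact h
  have h1 := Ideal.ramificationIdx'_ne_one_iff (p := Ideal.span {((q : ℕ) : ℤ)}) (P := P) hmapP
  have h2 : (Ideal.span {((q : ℕ) : ℤ)}).ramificationIdx' P = P.ramificationIdx ℤ :=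
    Ideal.ramificationIdx'_eq_ramificationIdx _ P hp0
  rw [span_natCast_eq_map, ← h1, not_not, h2]
  exact Ideal.ramificationIdx_eq_one_iff

/-- `(q)` is a radical ideal of `𝓞 K` iff every prime of `𝓞 K` over `q` is unramified. -/
theorem isRadical_span_natCast_iff (q : ℕ) (hq : q.Prime) :
    (Ideal.span {((q : ℕ) : 𝓞 K)}).IsRadical ↔
      ∀ (P : Ideal (𝓞 K)) (_ : P.IsPrime), ((q : ℕ) : 𝓞 K) ∈ P → Algebra.IsUnramifiedAt ℤ P := by
  have hI0 : Ideal.span {((q : ℕ) : 𝓞 K)} ≠ ⊥ := by
    simp [hq.ne_zero]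
  constructor
  · intro hrad P hP hqP
    rw [← span_natCast_le_sq_iff K q hq P hqP]
    intro hle
    have hrad' : IsRadical (Ideal.span {((q : ℕ) : 𝓞 K)}) := by
      intro n J hJ
      rw [Ideal.dvd_iff_le] at hJ ⊢
      intro x hx
      exact hrad ⟨n, hJ (Ideal.pow_mem_pow hx n)⟩
    have hsq : Squarefree (Ideal.span {((q : ℕ) : 𝓞 K)}) := hrad'.squarefree hI0
    have hdvd : P * P ∣ Ideal.span {((q : ℕ) : 𝓞 K)} := by
      rw [Ideal.dvd_iff_le, ← pow_two]
      exact hle
    have := hsq P hdvd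
    rw [Ideal.isUnit_iff] at this
    exact hP.ne_top this
  · intro h
    -- squarefree
    have hsq : Squarefree (Ideal.span {((q : ℕ) : 𝓞 K)}) := by
      intro J hJ
      by_contra hJu
      rw [Ideal.isUnit_iff] at hJu
      obtain ⟨P, hPmax, hJP⟩ := Ideal.exists_le_maximal J hJu
      have hle : Ideal.span {((q : ℕ) : 𝓞 K)} ≤ P ^ 2 := by
        rw [pow_two]
        exact (Ideal.le_of_dvd hJ).trans (Ideal.mul_mono hJP hJP)
      have hqP : ((q : ℕ) : 𝓞 K) ∈ P :=
        Ideal.pow_le_self (two_ne_zero) (hle (Ideal.mem_span_singleton_self _))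
      have := hPmax.isPrime
      exact (span_natCast_le_sq_iff K q hq P hqP).mpr (h P hPmax.isPrime hqP) hle
    have hrad : IsRadical (Ideal.span {((q : ℕ) : 𝓞 K)}) := hsq.isRadical
    intro x hx
    obtain ⟨n, hn⟩ := hx
    have h1 : Ideal.span {((q : ℕ) : 𝓞 K)} ∣ (Ideal.span {x}) ^ n := by
      rw [Ideal.dvd_iff_le, Ideal.span_singleton_pow, Ideal.span_singleton_le_iff_mem]
      exact hn
    have h2 := hrad n _ h1
    rw [Ideal.dvd_iff_le, Ideal.span_singleton_le_iff_mem] at h2
    exact h2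

/-- **Reduced fibre.** `𝓞 K / q` is reduced iff every prime of `𝓞 K` over `q` is unramified. -/
theorem isReduced_quotient_span_natCast_iff (q : ℕ) (hq : q.Prime) :
    IsReduced (𝓞 K ⧸ Ideal.span {((q : ℕ) : 𝓞 K)}) ↔
      ∀ (P : Ideal (𝓞 K)) (_ : P.IsPrime), ((q : ℕ) : 𝓞 K) ∈ P → Algebra.IsUnramifiedAt ℤ P := by
  rw [← Ideal.isRadical_iff_quotient_reduced]
  exact isRadical_span_natCast_iff K q hq

end Reduced

noncomputable section

/-! ### Normal closure -/

section NormalClosure

theorem liesOverPrime_smul (A : ValuationSubring Qb) (σ : Gam) (q : ℕ)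
    (h : A.LiesOverPrime q) : (σ • A).LiesOverPrime q := by
  show ((q : ℕ) : Qb) ∈ (σ • A).nonunits
  rw [mem_nonunits_smul_iff]
  have h' : ((q : ℕ) : Qb) ∈ A.nonunits := h
  simpa using h'

/-- If all inertia subgroups at the conjugates of `A` fix `F`, then the inertia subgroup of `A`
fixes the normal closure of `F`. -/
theorem inertia_le_fixingSubgroup_normalClosure (F : IntermediateField ℚ Qb)
    (A : ValuationSubring Qb)
    (h : ∀ σ : Gam, (σ • A).inertiaSubgroupIn ℚ ≤ F.fixingSubgroup) :
    A.inertiaSubgroupIn ℚ ≤ (IntermediateField.normalClosure ℚ F Qb).fixingSubgroup := by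
  intro τ hτ
  rw [IntermediateField.mem_fixingSubgroup_iff]
  have key : IntermediateField.normalClosure ℚ F Qb ≤
      IntermediateField.fixedField (Subgroup.zpowers τ) := by
    have hdef := IntermediateField.normalClosure_def'' (F := ℚ) (L := Qb) F
    refine le_trans (le_of_eq hdef) (iSup_le fun σ => ?_)
    rintro _ ⟨x, hx, rfl⟩
    rw [IntermediateField.mem_fixedField_iff]
    intro g hg
    obtain ⟨n, rfl⟩ := Subgroup.mem_zpowers_iff.mp hg
    have h1 : σ⁻¹ * τ * σ ∈ (σ⁻¹ • A).inertiaSubgroupIn ℚ := by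
      rw [mem_inertiaSubgroupIn_smul_iff]
      simpa [mul_assoc] using hτ
    have h2 := h σ⁻¹ h1
    rw [IntermediateField.mem_fixingSubgroup_iff] at h2
    have h3 : τ (σ x) = σ x := by
      have := h2 x hx
      have h4 : σ ((σ⁻¹ * τ * σ) x) = σ x := congrArg σ this
      simpa [AlgEquiv.mul_apply, AlgEquiv.aut_inv] using h4
    have h5 : ∀ m : ℕ, (τ ^ m) (σ x) = σ x := by
      intro m
      induction m with
      | zero => simp
      | succ k ih => rw [pow_succ, AlgEquiv.mul_apply, h3, ih]
    have h6 : ∀ m : ℕ, (τ ^ m)⁻¹ (σ x) = σ x := by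
      intro m
      have := h5 m
      rw [AlgEquiv.aut_inv]
      exact (AlgEquiv.symm_apply_eq _).mpr this.symm
    rcases Int.eq_nat_or_neg n with ⟨m, rfl | rfl⟩
    · simpa using h5 m
    · simpa using h6 m
  intro x hx
  have := key hx
  rw [IntermediateField.mem_fixedField_iff] at this
  exact this τ (Subgroup.mem_zpowers τ)

/-- **Galois closure.** The normal closure of a field unramified outside `S` (Prelude sense) is
unramified outside `S`. -/
theorem isUnramifiedOutside_normalClosure {S : Finset Nat.Primes}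
    {F : IntermediateField ℚ Qb} (hF : F.IsUnramifiedOutside S) :
    (IntermediateField.normalClosure ℚ F Qb).IsUnramifiedOutside S := by
  have := hF.1
  refine ⟨inferInstance, fun q hq A hA => ?_⟩
  exact inertia_le_fixingSubgroup_normalClosure F A
    (fun σ => hF.2 q hq (σ • A) (liesOverPrime_smul A σ q hA))

end NormalClosure

/-! ### Reduced fibres: the bridge to `IsReduced (𝓞 F ⧸ (q))` -/

section ReducedBridge

theorem mem_span_natCast_iff (F : IntermediateField ℚ Qb) (q : ℕ) (hq : q ≠ 0) (x : 𝓞 F) :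
    x ∈ Ideal.span {((q : ℕ) : 𝓞 F)} ↔ IsIntegral ℤ ((((x : F) : Qb)) / (q : Qb)) := by
  have hq' : (q : Qb) ≠ 0 := by exact_mod_cast hq
  rw [Ideal.mem_span_singleton']
  constructor
  · rintro ⟨a, rfl⟩
    have h1 : ((((a * (q : 𝓞 F) : 𝓞 F) : F) : Qb)) / (q : Qb) = ((a : F) : Qb) := by
      have : ((((a * (q : 𝓞 F) : 𝓞 F) : F) : Qb)) = ((a : F) : Qb) * (q : Qb) := by
        simp
      rw [this]
      field_simp
    rw [h1]
    exact (toZb F a).2
  · intro h
    have hF : (((x : F) : Qb)) / (q : Qb) ∈ F := F.div_mem (x : F).2 (natCast_mem F q)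
    refine ⟨ofMem F _ h hF, ?_⟩
    apply NumberField.RingOfIntegers.ext
    apply Subtype.ext
    have : ((((ofMem F _ h hF * (q : 𝓞 F) : 𝓞 F) : F) : Qb)) =
        ((((x : F) : Qb)) / (q : Qb)) * (q : Qb) := by
      simp [coe_ofMem]
    rw [this]
    field_simp

/-- radicality of `(q)` descends to subfields -/
theorem isRadical_span_natCast_of_le (F N : IntermediateField ℚ Qb) (hle : F ≤ N) (q : ℕ)
    (hq : q ≠ 0) (h : (Ideal.span {((q : ℕ) : 𝓞 N)}).IsRadical) :
    (Ideal.span {((q : ℕ) : 𝓞 F)}).IsRadical := by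
  rintro x ⟨n, hn⟩
  rw [mem_span_natCast_iff F q hq] at hn ⊢
  let x' : 𝓞 N := ofMem N ((x : F) : Qb) (toZb F x).2 (hle (x : F).2)
  have h1 : x' ^ n ∈ Ideal.span {((q : ℕ) : 𝓞 N)} := by
    rw [mem_span_natCast_iff N q hq]
    have : ((((x' ^ n : 𝓞 N) : N) : Qb)) = (((x : F) : Qb)) ^ n := by
      simp [x', coe_ofMem]
    rw [this]
    simpa using hn
  have h2 := h ⟨n, h1⟩
  rw [mem_span_natCast_iff N q hq] at h2
  exact h2

/-- **Bridge (Galois case).** For `F/ℚ` finite Galois: unramified outside `S` in the sense of the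
Prelude iff the fibre ring `𝓞 F ⧸ (q)` is reduced for all primes `q ∉ S`. -/
theorem isUnramifiedOutside_iff_isReduced (F : IntermediateField ℚ Qb) [FiniteDimensional ℚ F]
    [IsGalois ℚ F] (S : Finset Nat.Primes) :
    F.IsUnramifiedOutside S ↔
      ∀ q : Nat.Primes, q ∉ S → IsReduced (𝓞 F ⧸ Ideal.span {((q : ℕ) : 𝓞 F)}) := by
  have hnf : NumberField F := { to_charZero := inferInstance, to_finiteDimensional := inferInstance }
  rw [isUnramifiedOutside_iff]
  refine forall_congr' fun q => forall_congr' fun _ => ?_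
  exact (isReduced_quotient_span_natCast_iff F q q.2).symm

theorem isRadical_span_of_le_of_isGalois {S : Finset Nat.Primes} (F N : IntermediateField ℚ Qb)
    (hle : F ≤ N) [FiniteDimensional ℚ N] [IsGalois ℚ N] (hN : N.IsUnramifiedOutside S)
    (q : Nat.Primes) (hq : q ∉ S) : (Ideal.span {((q : ℕ) : 𝓞 F)}).IsRadical := by
  have hnf : NumberField N := { to_charZero := inferInstance, to_finiteDimensional := inferInstance }
  refine isRadical_span_natCast_of_le F N hle q q.2.ne_zero ?_
  rw [isRadical_span_natCast_iff N q q.2]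
  exact (isUnramifiedOutside_iff N S).mp hN q hq

theorem normal_normalClosure (F : IntermediateField ℚ Qb) :
    Normal ℚ (IntermediateField.normalClosure ℚ F Qb) :=
  normalClosure.normal ℚ F Qb

/-- **Bridge (any finite `F`).** If `F` is unramified outside `S` in the sense of the Prelude then
`(q)` is a radical ideal of `𝓞 F` for all primes `q ∉ S`. -/
theorem isRadical_span_of_isUnramifiedOutside {S : Finset Nat.Primes}
    {F : IntermediateField ℚ Qb} (hF : F.IsUnramifiedOutside S) (q : Nat.Primes) (hq : q ∉ S) :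
    (Ideal.span {((q : ℕ) : 𝓞 F)}).IsRadical := by
  have hN := isUnramifiedOutside_normalClosure hF
  have hfd : FiniteDimensional ℚ (IntermediateField.normalClosure ℚ F Qb) := hN.1
  have hnorm := normal_normalClosure F
  have hgal : IsGalois ℚ (IntermediateField.normalClosure ℚ F Qb) := ⟨⟩
  exact isRadical_span_of_le_of_isGalois F (IntermediateField.normalClosure ℚ F Qb)
    (IntermediateField.le_normalClosure F) hN q hq

/-- **Bridge (any finite `F`).** If `F` is unramified outside `S` in the sense of the Prelude then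
`𝓞 F ⧸ (q)` is reduced for all primes `q ∉ S`. -/
theorem isReduced_quotient_of_isUnramifiedOutside {S : Finset Nat.Primes}
    {F : IntermediateField ℚ Qb} (hF : F.IsUnramifiedOutside S) (q : Nat.Primes) (hq : q ∉ S) :
    IsReduced (𝓞 F ⧸ Ideal.span {((q : ℕ) : 𝓞 F)}) :=
  (Ideal.isRadical_iff_quotient_reduced _).mp (isRadical_span_of_isUnramifiedOutside hF q hq)

/-- **Bridge (any finite `F`).** If `F` is unramified outside `S` in the sense of the Prelude then
every prime of `𝓞 F` over a rational prime `q ∉ S` is unramified over `ℤ` (Mathlib). -/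
theorem isUnramifiedAt_of_isUnramifiedOutside {S : Finset Nat.Primes}
    {F : IntermediateField ℚ Qb} (hF : F.IsUnramifiedOutside S) (q : Nat.Primes) (hq : q ∉ S)
    (P : Ideal (𝓞 F)) [hP : P.IsPrime] (hqP : ((q : ℕ) : 𝓞 F) ∈ P) :
    Algebra.IsUnramifiedAt ℤ P := by
  have hfd := hF.1
  have hnf : NumberField F := { to_charZero := inferInstance, to_finiteDimensional := inferInstance }
  exact (isRadical_span_natCast_iff F q q.2).mp (isRadical_span_of_isUnramifiedOutside hF q hq) P hP hqP

/-- **Bridge (any finite `F`), Mathlib's `Algebra.IsUnramifiedIn`.** -/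
theorem isUnramifiedIn_of_isUnramifiedOutside {S : Finset Nat.Primes}
    {F : IntermediateField ℚ Qb} (hF : F.IsUnramifiedOutside S) (q : Nat.Primes) (hq : q ∉ S) :
    Algebra.IsUnramifiedIn (𝓞 F) (Ideal.span {((q : ℕ) : ℤ)}) := by
  intro P hP hlo
  refine isUnramifiedAt_of_isUnramifiedOutside hF q hq P ?_
  have h1 : ((q : ℕ) : ℤ) ∈ P.under ℤ := by
    rw [← hlo.over]
    exact Ideal.mem_span_singleton_self _
  rw [Ideal.mem_comap] at h1
  simpa using h1

end ReducedBridge

end

end Fermat.Agent.CFT.PlaceDict
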